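import Mathlib
import Fermat.Agent.Lib.Residue.Basic
import Fermat.Agent.S40x.C2.DerivKernel

/-!
# P-S44 (C2, leaf DESC, second): the universal chain rule in characteristic `p`

`K` a field of characteristic `p` with `K = K^p(t)` (e.g. `K / k(t)` separable algebraic over a
perfect field `k`, `DerivKernel.adjoin_pow_eq_top`).  For every `f ∈ K` there is `g ∈ K` such that
for EVERY ring homomorphism `τ : K → κ((z))` (`κ` a commutative ring of characteristic `p`)
`d(τ f)/dz = τ g * d(τ t)/dz` (`exists_universal_deriv`): no derivation on `K` and no uniqueness of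
extensions of derivations is needed.  If `K ⊆ κ((q))` and `h * dt/dq = df/dq` there, then `g = h`
(`chain_rule`).
-/

set_option autoImplicit false
set_option linter.unusedSectionVars false

noncomputable section

namespace Fermat.Agent.S40x.C2.DescB

open Fermat.Agent.Lib.Residue Fermat.Agent.S40x.C2 IntermediateField

section Universal

variable {K : Type*} [Field K] (p : ℕ) [hp : Fact p.Prime] [CharP K p]
  {κ : Type*} [Field κ] [CharP κ p]

theorem D_pow_char (x : LaurentSeries κ) : D (x ^ p) = 0 := by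
  have h0 : ((p : ℕ) : LaurentSeries κ) = 0 := by
    rw [← map_natCast (HahnSeries.C : κ →+* LaurentSeries κ), CharP.cast_eq_zero κ p, map_zero]
  obtain ⟨n, hn⟩ : ∃ n, p = n + 1 := ⟨p - 1, (Nat.succ_pred_eq_of_pos hp.out.pos).symm⟩
  have h1 : D (x ^ (n + 1)) = 0 := by
    rw [D_pow, ← hn, h0, zero_mul, zero_mul]
  rw [hn]
  exact h1

omit hp [CharP κ p] in
theorem D_inv (x : LaurentSeries κ) : D x⁻¹ = -(D x * (x⁻¹) ^ 2) := by
  by_cases hx : x = 0
  · subst hx
    simp
  · have h1 : D (x * x⁻¹) = 0 := by rw [mul_inv_cancel₀ hx, D_one]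
    rw [D_mul] at h1
    have h2 : x * D x⁻¹ = -(D x * x⁻¹) := eq_neg_of_add_eq_zero_right h1
    have h3 : D x⁻¹ = x⁻¹ * (x * D x⁻¹) := by rw [← mul_assoc, inv_mul_cancel₀ hx, one_mul]
    rw [h3, h2]
    ring

/-- **Universal chain rule.**  If `K = K^p(t)` then every `f ∈ K` has a "derivative with respect to
`t`" `g ∈ K` which computes `d(τ f)/dz` for every ring hom `τ` into Laurent series over a field of
characteristic `p`. -/
theorem exists_universal_deriv (t : K) (htop : (DerivKernel.powSubfield K p)⟮t⟯ = ⊤) (f : K) :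
    ∃ g : K, ∀ τ : K →+* LaurentSeries κ, D (τ f) = τ g * D (τ t) := by
  have hf : f ∈ (DerivKernel.powSubfield K p)⟮t⟯ := by rw [htop]; exact mem_top
  induction hf using IntermediateField.adjoin_induction with
  | mem x hx =>
    rw [Set.mem_singleton_iff] at hx
    subst hx
    exact ⟨1, fun τ => by rw [map_one, one_mul]⟩
  | algebraMap x =>
    obtain ⟨y, hy⟩ := (DerivKernel.mem_powSubfield p (x : K)).1 x.2
    refine ⟨0, fun τ => ?_⟩
    have : algebraMap (DerivKernel.powSubfield K p) K x = y ^ p := hy.symm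
    rw [this, map_pow, D_pow_char p, map_zero, zero_mul]
  | add x y _ _ hx hy =>
    obtain ⟨gx, hgx⟩ := hx
    obtain ⟨gy, hgy⟩ := hy
    exact ⟨gx + gy, fun τ => by rw [map_add, D_add, hgx, hgy, map_add, add_mul]⟩
  | inv x _ hx =>
    obtain ⟨gx, hgx⟩ := hx
    refine ⟨-(gx * (x⁻¹) ^ 2), fun τ => ?_⟩
    rw [map_inv₀, D_inv, hgx, map_neg, map_mul, map_pow, map_inv₀]
    ring
  | mul x y _ _ hx hy =>
    obtain ⟨gx, hgx⟩ := hx
    obtain ⟨gy, hgy⟩ := hy
    refine ⟨gx * y + x * gy, fun τ => ?_⟩
    rw [map_mul, D_mul, hgx, hgy, map_add, map_mul, map_mul]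
    ring

end Universal

section Sub

variable {k : Type*} [Field k] [PerfectField k] (K : IntermediateField k (LaurentSeries k))

/-- **Chain rule for all embeddings of a function field `K ⊆ k((q))`.**  If `h * dt/dq = df/dq` in
`k((q))` (`t` separating, `dt/dq ≠ 0`), then `τ h * d(τ t)/dz = d(τ f)/dz` for every ring hom
`τ : K → k((z))`. -/
theorem chain_rule (p : ℕ) [hp : Fact p.Prime] [CharP k p] (t : K) [Algebra.IsSeparable k⟮t⟯ K]
    (hDt : D (t : LaurentSeries k) ≠ 0) (f h : K)
    (hfh : (h : LaurentSeries k) * D (t : LaurentSeries k) = D (f : LaurentSeries k))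
    (τ : K →+* LaurentSeries k) : τ h * D (τ t) = D (τ f) := by
  haveI : CharP K p := charP_of_injective_algebraMap (algebraMap k K).injective p
  have htop := DerivKernel.adjoin_pow_eq_top (k := k) (K := K) p t
  obtain ⟨g, hg⟩ := exists_universal_deriv (κ := k) p t htop f
  have h0 := hg (algebraMap K (LaurentSeries k))
  have h1 : ((g : LaurentSeries k) - (h : LaurentSeries k)) * D (t : LaurentSeries k) = 0 := by
    rw [sub_mul, hfh]
    have : (g : LaurentSeries k) * D (t : LaurentSeries k) = D (f : LaurentSeries k) := h0.symm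
    rw [this, sub_self]
  have h2 : (g : LaurentSeries k) = (h : LaurentSeries k) :=
    sub_eq_zero.mp ((mul_eq_zero.mp h1).resolve_right hDt)
  have h3 : g = h := Subtype.ext h2
  rw [← h3, hg τ]

end Sub

end Fermat.Agent.S40x.C2.DescB
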