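import Mathlib
import Fermat.Agent.Gateway.GoodRed.Forms
import Fermat.Agent.Gateway.GoodRed.Instantiate.FormsRed
import Fermat.Agent.Lib.Residue.Ramified

/-!
# P-S44 (C2, leaf DESC, second): small lemmas on linear combinations of forms and on `q d/dq`

* `qExpansion_sum_smul`: the `q`-expansion of `∑ ι(a i) • f i` for forms `f i` with integral
  `q`-expansions `qf i` and `a i ∈ Kbar`;
* `hq_sum_smul`: `Forms.hq tq` is `Kbar`-linear in the power series;
* `theta_qExpand`: `z d/dz (f(z^e)) = e * (q df/dq)(z^e)`;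
* `coeff_of_qExpand_eq`: reading off coefficients from `qExpand`.
-/

set_option autoImplicit false
set_option linter.unusedSectionVars false

open UpperHalfPlane ModularCurve CongruenceSubgroup
open scoped MatrixGroups

noncomputable section

namespace Fermat.Agent.S40x.C2.DescB

open Fermat.Agent.S24.Setup Fermat.Agent.Lib.Residue Fermat.Agent.Gateway.GoodRed.Forms

section QExp

variable {N : ℕ} [NeZero N] {g : ℕ}

theorem qExpansion_sum_smul (f : Fin g → CuspForm (Gamma0 N) 2) (qf : Fin g → PowerSeries ℤ)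
    (hqf : ∀ i, qExpansion 1 (f i) = (qf i).map (Int.castRingHom ℂ)) (a : Fin g → Kbar) :
    qExpansion 1 ((∑ i, iota (a i) • f i : CuspForm (Gamma0 N) 2) : ℍ → ℂ) =
      (∑ i, a i • (qf i).map (Int.castRingHom Kbar)).map iota := by
  ext n
  have h1 : PowerSeries.coeff n (qExpansion 1
      ((∑ i, iota (a i) • f i : CuspForm (Gamma0 N) 2) : ℍ → ℂ)) =
      Fermat.Agent.S23.qMap N 2 (∑ i, iota (a i) • f i) n := rfl
  rw [h1, map_sum, Finset.sum_apply, PowerSeries.coeff_map, map_sum, map_sum]
  refine Finset.sum_congr rfl fun i _ => ?_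
  rw [map_smul, Pi.smul_apply, smul_eq_mul, Fermat.Agent.S23.qMap_apply]
  have h2 : ModularFormClass.qCoeff ((f i : CuspForm (Gamma0 N) 2) : ℍ → ℂ) n =
      PowerSeries.coeff n (qExpansion 1 (f i)) := rfl
  rw [h2, hqf i, PowerSeries.coeff_map, PowerSeries.coeff_smul, smul_eq_mul, map_mul,
    PowerSeries.coeff_map]
  simp

end QExp

section Hq

variable {g : ℕ}

theorem ofPowerSeries_smul {R : Type*} [CommRing R] (a : R) (p : PowerSeries R) :
    HahnSeries.ofPowerSeries ℤ R (a • p) = HahnSeries.C a * HahnSeries.ofPowerSeries ℤ R p := by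
  have : a • p = PowerSeries.C a * p := by
    ext n
    simp
  rw [this, map_mul, HahnSeries.ofPowerSeries_C]

theorem hq_sum_smul (tq : LaurentSeries Kbar) (a : Fin g → Kbar) (q : Fin g → PowerSeries Kbar) :
    hq tq (∑ i, a i • q i) = ∑ i, HahnSeries.C (a i) * hq tq (q i) := by
  unfold hq
  rw [map_sum, Finset.sum_div]
  refine Finset.sum_congr rfl fun i _ => ?_
  rw [ofPowerSeries_smul, mul_div_assoc]

end Hq

section Theta

variable {R : Type*} [CommRing R] (e : ℕ) [NeZero e]

/-- `z d/dz (f(z^e)) = e * (q df/dq)(z^e)`. -/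
theorem theta_qExpand (f : LaurentSeries R) :
    HahnSeries.single (1 : ℤ) (1 : R) * D (qExpand R e f) =
      HahnSeries.C (e : R) * qExpand R e (HahnSeries.single (1 : ℤ) (1 : R) * D f) := by
  have hR : qExpand R e (HahnSeries.single (1 : ℤ) (1 : R) * D f) =
      HahnSeries.single (e : ℤ) (1 : R) * qExpand R e (D f) := by
    rw [map_mul, qExpand_single, mul_one]
  rw [hR, D_qExpand, D_single, ← mul_assoc, ← mul_assoc, HahnSeries.single_mul_single,
    HahnSeries.C_apply, HahnSeries.single_mul_single]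
  congr 2
  · ring_nf
  · push_cast
    ring

theorem coeff_of_qExpand_eq {f : LaurentSeries R} {Z : LaurentSeries R}
    (h : qExpand R e f = Z) (n : ℤ) : f.coeff n = Z.coeff ((e : ℤ) * n) := by
  rw [← h, qExpand_coeff_mul]

end Theta

end Fermat.Agent.S40x.C2.DescB
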