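import Mathlib
import Fermat.Agent.Gateway.GoodRed.Forms
import Fermat.Agent.Gateway.AuxLevel.Membership

/-!
# P-S44 (C2, leaf DESC, second): `z`-expansions of the slashes of a weight two cusp form

`A : FormsData M` (a function `t ∈ F_M` with analytic avatar of nowhere vanishing derivative), `f` a
weight two cusp form on `Γ₀(M)` with `q`-expansion `qf ∈ Kbar[[q]]`, `h = A.hF f qf _ = qf / (q dt/dq)
∈ F_M`.  For every `g ∈ SL(2,ℤ)`, with `tau M g` the analytic embedding of `F_M` at the cusp `g∞`: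

* `tau_hF`, `tau_tF`: `tau M g h`, `tau M g t` are the `z`-expansions of `g • (f / Dθ)`, `g • θ`;
* `zL_fsl_eq`: the `z`-expansion of `f ∣[2] g⁻¹` is `M⁻¹ z * (tau M g h) * d(tau M g t)/dz`;
* `tau_gen_of_mem`: if `g ∈ Γ₀(M₁)` and `d ∣ M₁ ∣ M` then `tau M g` maps `j(q^d)` to `j(z^(M d))`
  (the standard expansion at `∞`).
-/

set_option autoImplicit false
set_option linter.unusedSectionVars false

open UpperHalfPlane ModularCurve CongruenceSubgroup IntermediateField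
open scoped MatrixGroups

noncomputable section

namespace Fermat.Agent.S40x.C2.DescB

open Fermat.Agent.S24 Fermat.Agent.S24.QExp Fermat.Agent.S24.Setup Derivative
open Fermat.Agent.S24.CuspOrd (cuspFnAlg IsCuspFn IsCuspMer)
open Fermat.Agent.Gateway.Dict Fermat.Agent.Gateway.GoodRed Fermat.Agent.Gateway.GoodRed.Forms

variable {M : ℕ} [NeZero M]

section Forms

variable (A : FormsData M)
  (f : CuspForm ((Gamma0 M : Subgroup SL(2, ℤ)) : Subgroup (GL (Fin 2) ℝ)) 2)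
  (qf : PowerSeries Kbar) (hqf : qExpansion 1 (f : ℍ → ℂ) = qf.map iota)

/-- `tau M g h` is the `z`-expansion of `g • (f / Dθ)`. -/
theorem tau_hF (g : SL(2, ℤ)) : tau M g (A.hF f qf hqf) = zL M (hsl A.hauptAn f g) := by
  obtain ⟨x, hx1, hx2⟩ := A.exists_xC f qf hqf
  have e : iotaF M (A.hF f qf hqf) = x := Subtype.ext hx2.symm
  rw [tau_apply, e]
  apply tauC_eq
  rw [hx1, MerFun.sl_smul_algebraMap]
  rfl

/-- `tau M g t` is the `z`-expansion of `g • θ`. -/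
theorem tau_tF (g : SL(2, ℤ)) : tau M g A.tF = zL M (A.hauptAn.tr g) := by
  rw [tau_apply]
  apply tauC_eq
  have e := EmbedC.embC_eq_of_qLaurent_eq M (iotaF M A.tF) A.θ_per A.θ_q
  rw [e, MerFun.sl_smul_algebraMap, ← A.hauptAn_θ]
  rfl

/-- The identity behind `Forms.zL_hsl_mul_D`. -/
theorem zL_hsl_mul_D_eq (T : HauptAn M) (g : SL(2, ℤ)) :
    zL M (hsl T f g) * Fermat.Agent.Lib.Residue.D (zL M (T.tr g)) =
      HahnSeries.C (M : ℂ) * (HahnSeries.single (-1 : ℤ) (1 : ℂ) * zL M (fsl f g)) := by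
  have hM : (M : ℂ) ≠ 0 := by exact_mod_cast NeZero.ne M
  have h1 : zL M (hsl T f g) * zL M (T.dtr g) = zL M (fsl f g) := by
    rw [← map_mul, hsl_mul]
  rw [HauptAn.dtr, zL_dCusp] at h1
  rw [← h1]
  have e1 : HahnSeries.C (M : ℂ) * HahnSeries.C ((M : ℂ)⁻¹) = (1 : LaurentSeries ℂ) := by
    rw [← map_mul, mul_inv_cancel₀ hM, map_one]
  have e2 : HahnSeries.single (-1 : ℤ) (1 : ℂ) * HahnSeries.single (1 : ℤ) (1 : ℂ) =
      (1 : LaurentSeries ℂ) := by
    rw [HahnSeries.single_mul_single]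
    simp
  calc zL M (hsl T f g) * Fermat.Agent.Lib.Residue.D (zL M (T.tr g))
      = (HahnSeries.C (M : ℂ) * HahnSeries.C ((M : ℂ)⁻¹)) *
        ((HahnSeries.single (-1 : ℤ) (1 : ℂ) * HahnSeries.single (1 : ℤ) (1 : ℂ)) *
          (zL M (hsl T f g) * Fermat.Agent.Lib.Residue.D (zL M (T.tr g)))) := by
        rw [e1, e2, one_mul, one_mul]
    _ = _ := by ring

/-- **The `z`-expansion of `f ∣[2] g⁻¹`** is `M⁻¹ z (tau M g h) d(tau M g t)/dz`. -/
theorem zL_fsl_eq (g : SL(2, ℤ)) :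
    zL M (fsl f g) = HahnSeries.C ((M : ℂ)⁻¹) * (HahnSeries.single (1 : ℤ) (1 : ℂ) *
      (tau M g (A.hF f qf hqf) * Fermat.Agent.Lib.Residue.D (tau M g A.tF))) := by
  have hM : (M : ℂ) ≠ 0 := by exact_mod_cast NeZero.ne M
  rw [tau_hF, tau_tF, zL_hsl_mul_D_eq]
  have e1 : HahnSeries.C ((M : ℂ)⁻¹) * HahnSeries.C (M : ℂ) = (1 : LaurentSeries ℂ) := by
    rw [← map_mul, inv_mul_cancel₀ hM, map_one]
  have e2 : HahnSeries.single (1 : ℤ) (1 : ℂ) * HahnSeries.single (-1 : ℤ) (1 : ℂ) =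
      (1 : LaurentSeries ℂ) := by
    rw [HahnSeries.single_mul_single]
    simp
  calc zL M (fsl f g) = (HahnSeries.C ((M : ℂ)⁻¹) * HahnSeries.C (M : ℂ)) *
        ((HahnSeries.single (1 : ℤ) (1 : ℂ) * HahnSeries.single (-1 : ℤ) (1 : ℂ)) *
          zL M (fsl f g)) := by rw [e1, e2, one_mul, one_mul]
    _ = _ := by ring

end Forms

section Std

variable (M)

/-- **The analytic embedding at a cusp `g∞` with `g ∈ Γ₀(M₁)` is standard on `j(q^d)`, `d ∣ M₁`.** -/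
theorem tau_gen_of_mem {M₁ d : ℕ} [NeZero d] (hd : d ∣ M₁) (hM : M₁ ∣ M) {g : SL(2, ℤ)}
    (hg : g ∈ Gamma0 M₁) :
    tau M g (gen M (hd.trans hM)) = coeffMap iota (qExpand Kbar M (jK d)) := by
  have hdM : d ∣ M := hd.trans hM
  have hcusp : JLevel.jd d ∈ cuspFnAlg M := by
    have := JD.isCuspFn_smul_jd hdM (1 : SL(2, ℤ))
    rwa [one_smul] at this
  rw [tau_apply, iotaF_gen]
  have h1 : tauC M g (SetupC.gen M hdM) = zL M ⟨JLevel.jd d, hcusp⟩ := by
    apply tauC_eq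
    rw [EmbedC.embC_gen, MerFun.sl_smul_algebraMap, JLevel.smul_jd_of_mem_Gamma0 hd hg]
  rw [h1]
  have hper : JLevel.jd d ∈ PerFun := by
    rw [← Embed.coe_jdPer]
    exact (Embed.jdPer d).2
  rw [zL_eq_qExpand M (JLevel.jd d) hper hcusp]
  have h2 : (⟨JLevel.jd d, hper⟩ : PerFun) = Embed.jdPer d := Subtype.ext (Embed.coe_jdPer d).symm
  rw [h2, Embed.qLaurent_jdPer, ← coeffMap_iota_jK, ModularCurve.coeffMap_qExpand]

end Std

end Fermat.Agent.S40x.C2.DescB
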