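import Mathlib
import Fermat.Agent.Gateway.GoodRed.Forms
import Fermat.Agent.Gateway.GoodRed.RedEmb
import Fermat.Agent.S24.CombIndex
import Fermat.Agent.S24.CombOrbits
import Fermat.Agent.Gateway.AuxLevel.Membership

/-!
# P-S44 (C2, leaf DESC, second): every analytic embedding `tau M g` is a cusp embedding over `Kbar`

`Forms.exists_tau_eq` says that every cusp embedding `σ : F_M → Kbar((z))` is, after extending
coefficients to `ℂ`, the analytic embedding `tau M g` (`z`-expansion of the `g`-translate) for some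
`g ∈ SL(2,ℤ)`.  Here the converse: `tau M g` only depends on the coset `g Γ₀(M)`, the map
`σ ↦ g Γ₀(M)` is injective, and both sets have `ψ(M)` elements; hence for EVERY `g ∈ SL(2,ℤ)` there
is a cusp embedding `σ : ConjFamily.Emb Kbar M` with `coeffMap iota ∘ embF σ = tau M g`
(`exists_emb_eq_tau`).
-/

set_option autoImplicit false
set_option linter.unusedSectionVars false

open UpperHalfPlane ModularCurve CongruenceSubgroup IntermediateField
open scoped MatrixGroups

noncomputable section

namespace Fermat.Agent.S40x.C2.DescB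

open Fermat.Agent.S24 Fermat.Agent.S24.QExp Fermat.Agent.S24.Setup
open Fermat.Agent.S24.CuspOrd (cuspFnAlg IsCuspFn IsCuspMer)
open Fermat.Agent.S24.EmbedGen (FracP toMer qFrac)
open Fermat.Agent.Gateway.Dict Fermat.Agent.Gateway.GoodRed Fermat.Agent.Gateway.GoodRed.Forms

variable (M : ℕ) [NeZero M]

/-- `tauC M g` only depends on the action of `g` on the image of `embC`. -/
theorem tauC_congr {g g' : SL(2, ℤ)}
    (h : ∀ x : SetupC.FC M, g' • EmbedC.embC M x = g • EmbedC.embC M x) :
    tauC M g' = tauC M g := by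
  refine RingHom.ext fun x => ?_
  unfold tauC
  rw [RingHom.comp_apply, RingHom.comp_apply]
  congr 1
  apply liftThrough_eq
  rw [liftThrough_spec]
  exact (h x).symm

/-- `tauC M g` only depends on the coset `g Γ₀(M)`. -/
theorem tauC_mul_of_mem (g γ : SL(2, ℤ)) (hγ : γ ∈ Gamma0 M) : tauC M (g * γ) = tauC M g := by
  apply tauC_congr
  intro x
  rw [mul_smul, EmbedC.embC_fixed M hγ x]

theorem tau_mul_of_mem (g γ : SL(2, ℤ)) (hγ : γ ∈ Gamma0 M) : tau M (g * γ) = tau M g := by
  unfold tau
  rw [tauC_mul_of_mem M g γ hγ]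

theorem tau_eq_of_mk_eq {g g' : SL(2, ℤ)}
    (h : (QuotientGroup.mk g : SL(2, ℤ) ⧸ Gamma0 M) = QuotientGroup.mk g') :
    tau M g = tau M g' := by
  have h1 : g⁻¹ * g' ∈ Gamma0 M := QuotientGroup.eq.mp h
  have h2 := tau_mul_of_mem M g (g⁻¹ * g') h1
  rw [mul_inv_cancel_left] at h2
  exact h2.symm

/-! ### The counting argument -/

/-- the two names of `j` in `FF M = FBar Kbar M`. -/
theorem jSF_one_eq_jF : jSF Kbar M one_ne_zero (one_dvd M) = (Fermat.Agent.S24.Setup.jF M : FF M) := by
  apply Subtype.ext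
  rw [coe_jSF, Fermat.Agent.S28.Tower.jS_one_one]
  show jqModC Kbar = jK 1
  rw [Fermat.Agent.Gateway.AuxLevel.jK_eq, qExpand_one_apply]

/-- every cusp embedding over `Kbar` is analytic (restatement of `Forms.exists_tau_eq`). -/
theorem exists_tau_eq_embF (σ : ConjFamily.Emb Kbar M) :
    ∃ g : SL(2, ℤ), (coeffMap iota).comp (embF σ) = tau M g := by
  refine exists_tau_eq M (embF σ) (embF_algebraMap M σ) ?_
  rw [← jSF_one_eq_jF, embF_j, Fermat.Agent.Gateway.AuxLevel.jK_eq, qExpand_one_apply]

/-- the coset of the analytic embedding attached to a cusp embedding. -/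
def cosetOf (σ : ConjFamily.Emb Kbar M) : SL(2, ℤ) ⧸ Gamma0 M :=
  QuotientGroup.mk (Classical.choose (exists_tau_eq_embF M σ))

theorem cosetOf_spec (σ : ConjFamily.Emb Kbar M) {g : SL(2, ℤ)}
    (hg : cosetOf M σ = QuotientGroup.mk g) : (coeffMap iota).comp (embF σ) = tau M g := by
  rw [Classical.choose_spec (exists_tau_eq_embF M σ)]
  exact tau_eq_of_mk_eq M hg

theorem coeffMap_iota_injective : Function.Injective (coeffMap iota : LaurentSeries Kbar →+* _) := by
  intro x y h
  ext n
  have := congrArg (fun s : LaurentSeries ℂ => s.coeff n) h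
  simp only [coeffMap_coeff] at this
  exact iota_injective this

theorem cosetOf_injective : Function.Injective (cosetOf M) := by
  intro σ σ' h
  obtain ⟨g, hg⟩ := QuotientGroup.mk_surjective (cosetOf M σ')
  have h1 := cosetOf_spec M σ (h.trans hg.symm)
  have h2 := cosetOf_spec M σ' hg.symm
  apply embF_injective
  refine RingHom.ext fun x => ?_
  apply coeffMap_iota_injective
  have := DFunLike.congr_fun (h1.trans h2.symm) x
  simpa using this

theorem cosetOf_surjective : Function.Surjective (cosetOf M) := by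
  have hNL : ((M : ℕ) : Kbar) ≠ 0 := natCast_ne_zero_L M
  have := ConjFamily.finite_emb (k := Kbar) (N := M) hNL
  have : Finite (SL(2, ℤ) ⧸ Gamma0 M) := Fermat.Agent.S24.Comb.finite_quotient_Gamma0 M
  have hb : Function.Bijective (cosetOf M) := by
    refine (cosetOf_injective M).bijective_of_nat_card_le ?_
    rw [ConjFamily.card_emb_eq_dedekindPsi hNL, Fermat.Agent.S24.Comb.card_quotient_Gamma0]
  exact hb.2

/-- **Every analytic embedding is a cusp embedding over `Kbar`.** -/
theorem exists_emb_eq_tau (g : SL(2, ℤ)) :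
    ∃ σ : ConjFamily.Emb Kbar M, (coeffMap iota).comp (embF σ) = tau M g := by
  obtain ⟨σ, hσ⟩ := cosetOf_surjective M (QuotientGroup.mk g)
  exact ⟨σ, cosetOf_spec M σ hσ⟩

end Fermat.Agent.S40x.C2.DescB
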