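import Mathlib
import Fermat.Agent.S40x.C2.DescB.TauEmb
import Fermat.Agent.S40x.C2.DescB.SlashZ
import Fermat.Agent.Gateway.GoodRed.Instantiate.FormsRed

/-!
# P-S44 (C2, leaf DESC, second): reduction of one term of the trace

Setting: `A ⊆ Kbar` a valuation subring, `π : A → k` onto an algebraically closed field of
characteristic `ℓ ∤ M`.  `σ : ConjFamily.Emb Kbar M` a cusp embedding with
`coeffMap iota ∘ embF σ = tau M g` (`TauEmb.exists_emb_eq_tau`), `σ̄ = redEmb σ`.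

* `redEmb_std_on_sub`: if `g ∈ Γ₀(M₁)`, `M₁ ∣ M`, then `σ̄` restricted to the subfield `Fk k M₁` of
  `Fk k M` is the standard embedding `y ↦ y(z^M)`;
* `red_term`: for `h, t ∈ OvVal` integral over `Kbar[j]`, the series `σ h * d(σ t)/dz` is
  `A`-integral and reduces to `σ̄ h̄ * d(σ̄ t̄)/dz`.
-/

set_option autoImplicit false
set_option linter.unusedSectionVars false
set_option linter.style.haveILetI false

open UpperHalfPlane ModularCurve CongruenceSubgroup IntermediateField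
open scoped MatrixGroups

noncomputable section

namespace Fermat.Agent.S40x.C2.DescB

open Polynomial Fermat.Agent.S28 Fermat.Agent.S28.Tower Fermat.Agent.Gateway.Red
open Fermat.Agent.S24.Setup Fermat.Agent.Lib.Residue
open Fermat.Agent.Gateway.GoodRed Fermat.Agent.Gateway.GoodRed.Forms

variable {M : ℕ} [NeZero M]

/-- the value of a cusp embedding over `Kbar` attached to `g ∈ Γ₀(M₁)` on `j(q^d)`, `d ∣ M₁`. -/
theorem emb_jdF_of_mem {M₁ d : ℕ} (hd : d ∣ M₁) (hM : M₁ ∣ M) {g : SL(2, ℤ)}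
    (hg : g ∈ Gamma0 M₁) (σ : ConjFamily.Emb Kbar M)
    (hσ : (coeffMap iota).comp (embF σ) = tau M g) :
    σ.1 (ConjFamily.jdF d (hd.trans hM)) = jS Kbar 1 (M * d) := by
  have hdM : d ∣ M := hd.trans hM
  have hd0 : d ≠ 0 := ConjFamily.ne_zero_of_dvd_N hdM
  haveI : NeZero d := ⟨hd0⟩
  have e : (jSF Kbar M hd0 hdM : FF M) = gen M hdM := by
    apply Subtype.ext
    rw [coe_jSF, coe_gen, Fermat.Agent.Gateway.AuxLevel.jK_eq, jS_eq_qExpand]
  have h1 := DFunLike.congr_fun hσ (jSF Kbar M hd0 hdM)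
  rw [RingHom.comp_apply, e, tau_gen_of_mem M hd hM hg] at h1
  have h2 := coeffMap_iota_injective h1
  rw [← e, embF_apply, toFullC_jSF] at h2
  rw [h2, Fermat.Agent.Gateway.AuxLevel.jK_eq, ConjFamily.qExpand_qExpand_jqModC]

section Red

variable (ℓ : ℕ) [Fact ℓ.Prime] (A : ValuationSubring Kbar)
  {k : Type} [Field k] [IsAlgClosed k] [CharP k ℓ] (π : A →+* k)
  (hπ : Function.Surjective π) (hℓM : ¬ ℓ ∣ M)

/-- **The reduction of a cusp embedding attached to `g ∈ Γ₀(M₁)` is standard on `Fk k M₁`.** -/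
theorem redEmb_std_on_sub {M₁ : ℕ} [NeZero M₁] (hM : M₁ ∣ M) {g : SL(2, ℤ)}
    (hg : g ∈ Gamma0 M₁) (σ : ConjFamily.Emb Kbar M)
    (hσ : (coeffMap iota).comp (embF σ) = tau M g)
    (y : LaurentSeries k) (hy₁ : y ∈ modularFunctionFieldFullC k M₁)
    (hy : y ∈ modularFunctionFieldFullC k M) :
    (redEmb A π M ℓ hπ hℓM σ).1 ⟨y, hy⟩ = qExpand k M y := by
  have hle : modularFunctionFieldFullC k M₁ ≤ modularFunctionFieldFullC k M :=
    full_degeneracyC_le k hM
  unfold modularFunctionFieldFullC at hy₁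
  induction hy₁ using IntermediateField.adjoin_induction with
  | mem x hx =>
    obtain ⟨d, hd0, hd, rfl⟩ := hx
    have hdM : d ∣ M := hd.trans hM
    have e : (⟨qExpand k d (jqModC k), hy⟩ : ConjFamily.Fk k M) = ConjFamily.jdF d hdM := by
      apply Subtype.ext
      rw [ConjFamily.coe_jdF, jS_eq_qExpand]
    rw [e]
    have h1 := emb_jdF_of_mem hd hM hg σ hσ
    have h2 := redEmb_jdF ℓ hπ hℓM σ hdM (1 : Aˣ) (M * d) (by rw [map_one]; exact h1)
    rw [h2, map_one, ← ConjFamily.qExpand_qExpand_jqModC]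
  | algebraMap c =>
    have e : (⟨algebraMap k (LaurentSeries k) c, hy⟩ : ConjFamily.Fk k M) =
        algebraMap k (ConjFamily.Fk k M) c := rfl
    rw [e, ConjFamily.emb_algebraMap, algebraMap_laurentSeries_eq_single]
    exact (qExpand_C M c).symm
  | add x z hx hz ihx ihz =>
    have hxM := hle hx
    have hzM := hle hz
    have e : (⟨x + z, hy⟩ : ConjFamily.Fk k M) = ⟨x, hxM⟩ + ⟨z, hzM⟩ := rfl
    rw [e, map_add, ihx hxM, ihz hzM, map_add]
  | inv x hx ihx =>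
    have hxM := hle hx
    have e : (⟨x⁻¹, hy⟩ : ConjFamily.Fk k M) = (⟨x, hxM⟩ : ConjFamily.Fk k M)⁻¹ := rfl
    rw [e, map_inv₀, ihx hxM, map_inv₀]
  | mul x z hx hz ihx ihz =>
    have hxM := hle hx
    have hzM := hle hz
    have e : (⟨x * z, hy⟩ : ConjFamily.Fk k M) = ⟨x, hxM⟩ * ⟨z, hzM⟩ := rfl
    rw [e, map_mul, ihx hxM, ihz hzM, map_mul]

attribute [local instance] algebraRF algebraPolyF

/-- **Reduction of `σ h * d(σ t)/dz`.** -/
theorem red_term (σ : ConjFamily.Emb Kbar M) (h t : OvVal A π M ℓ hπ hℓM)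
    (hh : IsIntegral Kbar[X] (h : FBar Kbar M)) (ht : IsIntegral Kbar[X] (t : FBar Kbar M)) :
    ∃ Z : LaurentSeries A, embF σ h * D (embF σ t) = embA A Z ∧
      redA A π Z = (redEmb A π M ℓ hπ hℓM σ).1 (resFk A π M ℓ hπ hℓM h) *
        D ((redEmb A π M ℓ hπ hℓM σ).1 (resFk A π M ℓ hπ hℓM t)) := by
  obtain ⟨a, ha⟩ := embF_mem_intLS A π M ℓ hπ hℓM hh h.2 σ
  obtain ⟨b, hb⟩ := embF_mem_intLS A π M ℓ hπ hℓM ht t.2 σ
  refine ⟨a * D b, ?_, ?_⟩
  · rw [map_mul, embA, ← D_coeffMap]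
    exact congrArg₂ (fun u v => u * D v) ha.symm hb.symm
  · rw [redEmb_of_eq_embA ℓ hπ hℓM σ h ha.symm, redEmb_of_eq_embA ℓ hπ hℓM σ t hb.symm,
      map_mul, redA, ← D_coeffMap]

end Red

end Fermat.Agent.S40x.C2.DescB
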