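import Mathlib
import Fermat.Agent.Gateway.GoodRed.Forms.Saturation

/-!
# P-S44 (C2, leaf DESC, second): coordinates in a saturated basis are integral

`A` a valuation subring of a field `L`, `π : A → k` a ring hom to a field, `ι : L → E` a field
embedding.  `v j : ℕ → ℤ` integer vectors whose reductions are linearly independent over `k`
("saturated").  If an `A`-integral vector `Q : ℕ → A` is an `E`-linear combination of the `v j`, then
it is an `A`-linear combination of the `v j` (`exists_integral_coord`): first descend the linear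
dependence from `E` to `L`, then normalise the relation by the coefficient of largest valuation and
reduce it.  No minors.
-/

set_option autoImplicit false
set_option linter.unusedSectionVars false

noncomputable section

namespace Fermat.Agent.S40x.C2.DescB

open Fermat.Agent.Gateway.GoodRed.Forms

section Normalise

variable {L : Type*} [Field L] (A : ValuationSubring L)

/-- A nonzero finite family of elements of `L` can be scaled into `A` with one entry equal to `1`. -/
theorem exists_scale_mem {ι : Type*} [Fintype ι] (a : ι → L) (ha : ∃ i, a i ≠ 0) :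
    ∃ i₀, a i₀ ≠ 0 ∧ ∀ i, (a i₀)⁻¹ * a i ∈ A := by
  classical
  obtain ⟨i₁, hi₁⟩ := ha
  have hne : (Finset.univ.filter fun i => a i ≠ 0).Nonempty := ⟨i₁, by simp [hi₁]⟩
  obtain ⟨i₀, hi₀, hmax⟩ := Finset.exists_max_image _ (fun i => A.valuation (a i)) hne
  have h0 : a i₀ ≠ 0 := (Finset.mem_filter.mp hi₀).2
  refine ⟨i₀, h0, fun i => ?_⟩
  by_cases hi : a i = 0
  · rw [hi, mul_zero]
    exact A.zero_mem
  · have hle := hmax i (Finset.mem_filter.mpr ⟨Finset.mem_univ _, hi⟩)
    rw [← A.valuation_le_one_iff, map_mul, map_inv₀]
    have hv0 : A.valuation (a i₀) ≠ 0 := (A.valuation.ne_zero_iff).mpr h0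
    rw [inv_mul_le_iff₀ (zero_lt_iff.mpr hv0), mul_one]
    exact hle

end Normalise

section Main

variable {L : Type*} [Field L] (A : ValuationSubring L) {k : Type*} [Field k] (π : A →+* k)
  {E : Type*} [Field E] (ι : L →+* E) {g : ℕ}

/-- An element of `A` which is not killed by the residue map is a unit. -/
theorem isUnit_of_residue_ne_zero (hπ : Function.Surjective π) {x : A} (hx : π x ≠ 0) : IsUnit x := by
  have hmax : (RingHom.ker π).IsMaximal := RingHom.ker_isMaximal_of_surjective π hπ
  have heq : RingHom.ker π = IsLocalRing.maximalIdeal A := IsLocalRing.eq_maximalIdeal hmax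
  by_contra hnu
  have : x ∈ IsLocalRing.maximalIdeal A := (IsLocalRing.mem_maximalIdeal x).mpr hnu
  rw [← heq, RingHom.mem_ker] at this
  exact hx this

/-- **Coordinates in a saturated basis are integral.** -/
theorem exists_integral_coord (hπ : Function.Surjective π) (v : Fin g → ℕ → ℤ)
    (hsat : LinearIndependent k (fun j => fun n => ((v j n : ℤ) : k)))
    (Q : ℕ → A) (b : Fin g → E)
    (hQ : ∀ n, ι (Q n : L) = ∑ j, b j * ((v j n : ℤ) : E)) :
    ∃ β : Fin g → A, ∀ n, Q n = ∑ j, β j * ((v j n : ℤ) : A) := by
  classical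
  letI : Algebra L E := ι.toAlgebra
  -- the family `(Q, v 0, …, v (g-1))` over `L`
  let w : Option (Fin g) → ℕ → L := fun o => match o with
    | none => fun n => (Q n : L)
    | some j => fun n => ((v j n : ℤ) : L)
  -- it is linearly dependent over `E`, hence over `L`
  have hdepL : ¬ LinearIndependent L w := by
    intro hli
    have hE := linearIndependent_algebraMap_comp (K := L) (E := E) hli
    rw [Fintype.linearIndependent_iff] at hE
    have h1 := hE (fun o => match o with
      | none => (1 : E)
      | some j => -b j) (by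
        funext n
        rw [Fintype.sum_option]
        simp only [Finset.sum_apply, Pi.add_apply, Pi.smul_apply, smul_eq_mul, Pi.zero_apply, w]
        have e1 : algebraMap L E (Q n : L) = ι (Q n : L) := rfl
        have e2 : ∀ j, algebraMap L E ((v j n : ℤ) : L) = ((v j n : ℤ) : E) := fun j => by
          rw [map_intCast]
        rw [e1, hQ n]
        simp only [e2, one_mul, neg_mul, Finset.sum_neg_distrib]
        exact add_neg_cancel _) none
    exact one_ne_zero h1
  rw [Fintype.linearIndependent_iff] at hdepL
  push Not at hdepL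
  obtain ⟨a, hrel, i₁, hi₁⟩ := hdepL
  -- normalise
  obtain ⟨i₀, h0, hmem⟩ := exists_scale_mem A a ⟨i₁, hi₁⟩
  let c : Option (Fin g) → A := fun o => ⟨(a i₀)⁻¹ * a o, hmem o⟩
  have hc1 : c i₀ = 1 := Subtype.ext (inv_mul_cancel₀ h0)
  have hrelA : ∀ n, c none * Q n + ∑ j, c (some j) * ((v j n : ℤ) : A) = 0 := by
    intro n
    apply Subtype.ext
    have h1 := congrFun hrel n
    rw [Fintype.sum_option] at h1
    simp only [Finset.sum_apply, Pi.add_apply, Pi.smul_apply, smul_eq_mul, Pi.zero_apply, w] at h1
    have h2 : (a i₀)⁻¹ * (a none * (Q n : L) + ∑ j, a (some j) * ((v j n : ℤ) : L)) = 0 := by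
      rw [h1, mul_zero]
    rw [mul_add, Finset.mul_sum] at h2
    push_cast
    rw [← h2]
    simp only [c, mul_assoc]
  -- the coefficient of `Q` is a unit
  have hunit : π (c none) ≠ 0 := by
    intro hzero
    have hk : ∑ j, π (c (some j)) • (fun n => ((v j n : ℤ) : k)) = 0 := by
      funext n
      have h1 := congrArg π (hrelA n)
      rw [map_add, map_mul, hzero, zero_mul, zero_add, map_sum, map_zero] at h1
      simp only [Finset.sum_apply, Pi.smul_apply, smul_eq_mul, Pi.zero_apply]
      rw [← h1]
      refine Finset.sum_congr rfl fun j _ => ?_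
      rw [map_mul, map_intCast]
    have hall := (Fintype.linearIndependent_iff.mp hsat) (fun j => π (c (some j))) hk
    cases hi : i₀ with
    | none =>
      rw [hi] at hc1
      rw [hc1, map_one] at hzero
      exact one_ne_zero hzero
    | some j =>
      rw [hi] at hc1
      have := hall j
      rw [hc1, map_one] at this
      exact one_ne_zero this
  have hu : IsUnit (c none) := isUnit_of_residue_ne_zero A π hπ hunit
  obtain ⟨u, hu⟩ := hu
  refine ⟨fun j => -(((u⁻¹ : Aˣ) : A) * c (some j)), fun n => ?_⟩
  have h1 := hrelA n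
  rw [← hu] at h1
  have h2 : Q n = -(((u⁻¹ : Aˣ) : A) * ∑ j, c (some j) * ((v j n : ℤ) : A)) := by
    have h3 : ((u⁻¹ : Aˣ) : A) * ((u : A) * Q n + ∑ j, c (some j) * ((v j n : ℤ) : A)) = 0 := by
      rw [h1, mul_zero]
    rw [mul_add, ← mul_assoc, Units.inv_mul, one_mul] at h3
    exact eq_neg_of_add_eq_zero_left h3
  rw [h2, Finset.mul_sum, ← Finset.sum_neg_distrib]
  refine Finset.sum_congr rfl fun j _ => ?_
  ring

end Main

end Fermat.Agent.S40x.C2.DescB
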