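import Mathlib
import Fermat.Agent.Gateway.GoodRed.Forms

/-!
# P-S44 (C2, leaf DESC, second): the trace `S₂(Γ₀(M)) → S₂(Γ₀(M₁))` and its `z`-expansion

For `M₁ ∣ M` and a weight two cusp form `F` on `Γ₀(M)`, Mathlib's `CuspForm.trace` gives a cusp form
`G` on `Γ₀(M₁)` which is the sum of the slashes `F ∣[2] (r i)⁻¹` over a finite family `r i ∈ Γ₀(M₁)`
of `[Γ₀(M₁) : Γ₀(M)]` elements (`exists_trace_reps`).  Its `q`-expansion, read in the variable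
`z = q^(1/M)`, is the sum of the `z`-expansions of the slashes (`qExpand_trace_eq`).
-/

set_option autoImplicit false
set_option linter.unusedSectionVars false

open UpperHalfPlane ModularCurve CongruenceSubgroup
open scoped MatrixGroups ModularForm

noncomputable section

namespace Fermat.Agent.S40x.C2.DescB

open Fermat.Agent.S24 Fermat.Agent.S24.QExp Derivative
open Fermat.Agent.S24.CuspOrd (cuspFnAlg IsCuspFn IsCuspMer)
open Fermat.Agent.Gateway.GoodRed.Forms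
open Matrix.SpecialLinearGroup (mapGL)

variable {M₁ M : ℕ} [NeZero M₁] [NeZero M]

theorem relIndex_Gamma0_ne_zero : (Gamma0 M).relIndex (Gamma0 M₁) ≠ 0 := by
  have : (Gamma0 M).IsFiniteRelIndex (Gamma0 M₁) := Subgroup.isFiniteRelIndex_of_finiteIndex
  exact Subgroup.relIndex_ne_zero

theorem isFiniteRelIndex_map_Gamma0 :
    ((Gamma0 M : Subgroup SL(2, ℤ)) : Subgroup (GL (Fin 2) ℝ)).IsFiniteRelIndex
      ((Gamma0 M₁ : Subgroup SL(2, ℤ)) : Subgroup (GL (Fin 2) ℝ)) := by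
  rw [Subgroup.isFiniteRelIndex_iff_relIndex_ne_zero]
  show (Subgroup.map (mapGL ℝ) (Gamma0 M)).relIndex (Subgroup.map (mapGL ℝ) (Gamma0 M₁)) ≠ 0
  rw [Subgroup.relIndex_map_map_of_injective _ _ Matrix.SpecialLinearGroup.mapGL_injective]
  exact relIndex_Gamma0_ne_zero

/-- **The trace as a finite sum of slashes** by elements of `Γ₀(M₁)`. -/
theorem exists_trace_reps
    (F : CuspForm ((Gamma0 M : Subgroup SL(2, ℤ)) : Subgroup (GL (Fin 2) ℝ)) 2) :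
    ∃ (G : CuspForm ((Gamma0 M₁ : Subgroup SL(2, ℤ)) : Subgroup (GL (Fin 2) ℝ)) 2)
      (ι : Type) (_ : Fintype ι) (r : ι → SL(2, ℤ)),
      (∀ i, r i ∈ Gamma0 M₁) ∧ Fintype.card ι = (Gamma0 M).relIndex (Gamma0 M₁) ∧
      (G : ℍ → ℂ) = ∑ i, (F : ℍ → ℂ) ∣[(2 : ℤ)] (r i)⁻¹ := by
  classical
  haveI := isFiniteRelIndex_map_Gamma0 (M₁ := M₁) (M := M)
  let 𝒢 : Subgroup (GL (Fin 2) ℝ) := ((Gamma0 M : Subgroup SL(2, ℤ)) : Subgroup (GL (Fin 2) ℝ))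
  let ℋ : Subgroup (GL (Fin 2) ℝ) := ((Gamma0 M₁ : Subgroup SL(2, ℤ)) : Subgroup (GL (Fin 2) ℝ))
  letI : Fintype (ℋ ⧸ 𝒢.subgroupOf ℋ) := Fintype.ofFinite _
  -- representatives in `Γ₀(M₁)`
  have hex : ∀ q : ℋ ⧸ 𝒢.subgroupOf ℋ, ∃ γ : SL(2, ℤ), γ ∈ Gamma0 M₁ ∧
      mapGL ℝ γ = ((Quotient.out q : ℋ) : GL (Fin 2) ℝ) := by
    intro q
    obtain ⟨γ, hγ, hγq⟩ := (Quotient.out q : ℋ).2
    exact ⟨γ, hγ, hγq⟩
  choose r hr1 hr2 using hex
  refine ⟨CuspForm.trace ℋ F, ℋ ⧸ 𝒢.subgroupOf ℋ, inferInstance, r, hr1, ?_, ?_⟩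
  · rw [← Nat.card_eq_fintype_card]
    show (𝒢.subgroupOf ℋ).index = _
    show 𝒢.relIndex ℋ = _
    exact Subgroup.relIndex_map_map_of_injective _ _ Matrix.SpecialLinearGroup.mapGL_injective
  · rw [CuspForm.coe_trace]
    refine Finset.sum_congr (by ext; simp) fun q _ => ?_
    have hq : q = ⟦Quotient.out q⟧ := (Quotient.out_eq q).symm
    rw [hq, SlashInvariantForm.quotientFunc_mk, ← hq, ← hr2 q, ← map_inv, ModularForm.SL_slash]
    rfl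

/-- **The `q`-expansion of a sum of slashes**, read in the variable `z = q^(1/M)`, is the sum of the
`z`-expansions of the slashes. -/
theorem qExpand_trace_eq
    (F : CuspForm ((Gamma0 M : Subgroup SL(2, ℤ)) : Subgroup (GL (Fin 2) ℝ)) 2)
    (G : CuspForm ((Gamma0 M₁ : Subgroup SL(2, ℤ)) : Subgroup (GL (Fin 2) ℝ)) 2)
    {ι : Type} [Fintype ι] (r : ι → SL(2, ℤ))
    (hG : (G : ℍ → ℂ) = ∑ i, (F : ℍ → ℂ) ∣[(2 : ℤ)] (r i)⁻¹) :
    qExpand ℂ M (HahnSeries.ofPowerSeries ℤ ℂ (qExpansion 1 (G : ℍ → ℂ))) =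
      ∑ i, zL M (fsl F (r i)) := by
  have hper : (⟨G, G.holo'⟩ : HolFun) ∈ PerFun := form_mem_perFun G
  have hsum : (⟨G, G.holo'⟩ : HolFun) = ((∑ i, fsl F (r i) : cuspFnAlg M) : HolFun) := by
    apply HolFun.ext
    intro z
    show (G : ℍ → ℂ) z = _
    rw [hG, AddSubmonoidClass.coe_finsetSum, AddSubmonoidClass.coe_finsetSum]
    simp only [Finset.sum_apply]
    rfl
  have hcusp : (⟨G, G.holo'⟩ : HolFun) ∈ cuspFnAlg M := by
    rw [hsum]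
    exact (∑ i, fsl F (r i) : cuspFnAlg M).2
  have h1 := zL_eq_qExpand M (⟨G, G.holo'⟩ : HolFun) hper hcusp
  have h3 : qLaurent ⟨(⟨G, G.holo'⟩ : HolFun), hper⟩ =
      HahnSeries.ofPowerSeries ℤ ℂ (qExpansion 1 (G : ℍ → ℂ)) :=
    qLaurent_of_bdd ⟨(⟨G, G.holo'⟩ : HolFun), hper⟩ (form_isBounded G)
  rw [h3] at h1
  have h2 : (⟨(⟨G, G.holo'⟩ : HolFun), hcusp⟩ : cuspFnAlg M) = ∑ i, fsl F (r i) :=
    Subtype.ext hsum
  rw [h2, map_sum] at h1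
  exact h1.symm

end Fermat.Agent.S40x.C2.DescB
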