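import Mathlib
import Fermat.Agent.S40x.C2.Omega4
import Fermat.Agent.S40x.C2.DescB.TauEmb
import Fermat.Agent.S40x.C2.DescB.SlashZ
import Fermat.Agent.S40x.C2.DescB.TraceZ
import Fermat.Agent.S40x.C2.DescB.ChainP
import Fermat.Agent.S40x.C2.DescB.Saturate
import Fermat.Agent.S40x.C2.DescB.RedTerm
import Fermat.Agent.S40x.C2.DescB.LinComb
import Fermat.Agent.Gateway.GoodRed.TLineHurwitz

/-!
# P-S44 (C2, leaf DESC, second): descent of logarithmic differentials from level `M` to `M₁ ∣ M`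
-/

set_option autoImplicit false
set_option linter.unusedSectionVars false
set_option linter.style.haveILetI false

open UpperHalfPlane ModularCurve CongruenceSubgroup IntermediateField
open scoped MatrixGroups

noncomputable section

namespace Fermat.Agent.S40x.C2.DescB

open Polynomial Fermat.Agent.S28 Fermat.Agent.S28.Tower Fermat.Agent.Gateway.Red
open Fermat.Agent.S24.Setup Fermat.Agent.Lib.Residue Fermat.Agent.Gateway.AuxLevel
open Fermat.Agent.Gateway.GoodRed Fermat.Agent.Gateway.GoodRed.Forms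
open Fermat.Agent.Gateway.GoodRed.ConjFamily

attribute [local instance] algebraRF algebraPolyF

section Step1

variable {M : ℕ} [NeZero M] (ℓ : ℕ) [Fact ℓ.Prime] (A : ValuationSubring Kbar)
  {k : Type} [Field k] [IsAlgClosed k] [CharP k ℓ] (π : A →+* k)
  (hπ : Function.Surjective π) (hℓM : ¬ ℓ ∣ M)

/-- **Step 1 (lifting).** -/
theorem exists_lift (h4 : 4 ∣ M) {g : ℕ} (f : Fin g → CuspForm (Gamma0 M) 2)
    (qf : Fin g → PowerSeries ℤ)
    (hqf : ∀ i, qExpansion 1 (f i) = (qf i).map (Int.castRingHom ℂ)) (c : Fin g → k) :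
    ∃ (s : CuspForm (Gamma0 M) 2) (qs : PowerSeries Kbar)
      (hqs : qExpansion 1 (s : ℍ → ℂ) = qs.map iota)
      (hmem : (Forms.formsData4 M h4).hF s qs hqs ∈ OvVal A π M ℓ hπ hℓM),
      IsIntegral Kbar[X] (((Forms.formsData4 M h4).hF s qs hqs : FF M) : FBar Kbar M) ∧
      ((resFk A π M ℓ hπ hℓM ⟨(Forms.formsData4 M h4).hF s qs hqs, hmem⟩ : Fk k M) :
          LaurentSeries k) * (HahnSeries.single (1 : ℤ) (1 : k) * D (TLine4.x4k k)) =
        ∑ i, HahnSeries.C (c i) *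
          HahnSeries.ofPowerSeries ℤ k ((qf i).map (Int.castRingHom k)) := by
  classical
  set AD := Forms.formsData4 M h4 with hAD
  have htq : AD.tq = coeffMap (Int.castRingHom Kbar) L4.x4 := Forms.formsData4_tq' M h4
  have hu := L4.isUnit_leadingCoeff_x4
  choose hZ hZ1 hZ2 using fun i => AD.hq_int L4.x4 htq hu (qf i)
  choose a ha using fun i => hπ (c i)
  have hqs' : qExpansion 1 ((∑ i, iota (a i : Kbar) • f i : CuspForm (Gamma0 M) 2) : ℍ → ℂ) =
      (∑ i, (a i : Kbar) • (qf i).map (Int.castRingHom Kbar)).map iota :=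
    qExpansion_sum_smul f qf hqf _
  have hcoe : ((AD.hF _ _ hqs' : FF M) : LaurentSeries Kbar) =
      embA A (∑ i, HahnSeries.C (a i) * intA A (hZ i)) := by
    show hq AD.tq _ = _
    rw [hq_sum_smul, map_sum]
    refine Finset.sum_congr rfl fun i _ => ?_
    rw [map_mul, embA_C, embA_intA, ← hZ2 i]
  have hmem : AD.hF _ _ hqs' ∈ OvVal A π M ℓ hπ hℓM := by
    rw [mem_OvVal_iff, mem_Ov_iff, hcoe]
    exact embA_mem_gaussRing A π _
  refine ⟨_, _, hqs', hmem, ?_, ?_⟩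
  · have h1 := AD.hF_isIntegral _ _ hqs'
    rw [jF_setup_eq] at h1
    exact (isIntegral_polyF_iff (jF Kbar M) rfl _).mpr h1
  · have hres : ((resFk A π M ℓ hπ hℓM ⟨AD.hF _ _ hqs', hmem⟩ : Fk k M) : LaurentSeries k) =
        ∑ i, HahnSeries.C (c i) * coeffMap (Int.castRingHom k) (hZ i) := by
      rw [coe_resFk, redV_of_eq_embA A π (FBar Kbar M) _ hcoe, map_sum]
      refine Finset.sum_congr rfl fun i _ => ?_
      rw [map_mul, redA_C, redA_intA, ha i]
    have hGk : HahnSeries.single (1 : ℤ) (1 : k) * D (TLine4.x4k k) =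
        coeffMap (Int.castRingHom k) (HahnSeries.single (1 : ℤ) (1 : ℤ) * D L4.x4) := by
      rw [map_mul, coeffMap_single, ← D_coeffMap, eq_intCast, Int.cast_one]
      rfl
    rw [hres, Finset.sum_mul]
    refine Finset.sum_congr rfl fun i _ => ?_
    rw [hGk, mul_assoc, ← map_mul, hZ1, coeffMap_ofPowerSeries]

end Step1

section Step2

variable {M : ℕ} [NeZero M] (ℓ : ℕ) [Fact ℓ.Prime] (A : ValuationSubring Kbar)
  {k : Type} [Field k] [IsAlgClosed k] [CharP k ℓ] (π : A →+* k)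
  (hπ : Function.Surjective π) (hℓM : ¬ ℓ ∣ M)

theorem theta_x4k_ne_zero : HahnSeries.single (1 : ℤ) (1 : k) * D (TLine4.x4k k) ≠ 0 := by
  have hGk : HahnSeries.single (1 : ℤ) (1 : k) * D (TLine4.x4k k) =
      coeffMap (Int.castRingHom k) (HahnSeries.single (1 : ℤ) (1 : ℤ) * D L4.x4) := by
    rw [map_mul, coeffMap_single, ← D_coeffMap, eq_intCast, Int.cast_one]
    rfl
  have hU : IsUnit (HahnSeries.single (1 : ℤ) (1 : ℤ) * D L4.x4) :=
    HahnSeries.isUnit_iff.mpr L4.isUnit_leadingCoeff_x4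
  rw [hGk]
  exact (hU.map (coeffMap (Int.castRingHom k))).ne_zero

/-- **Step 2 (one term of the trace).** -/
theorem term_red {M₁ : ℕ} [NeZero M₁] (hM : M₁ ∣ M) (h4 : 4 ∣ M)
    (s : CuspForm (Gamma0 M) 2) (qs : PowerSeries Kbar)
    (hqs : qExpansion 1 (s : ℍ → ℂ) = qs.map iota)
    (hmem : (Forms.formsData4 M h4).hF s qs hqs ∈ OvVal A π M ℓ hπ hℓM)
    (hint : IsIntegral Kbar[X] (((Forms.formsData4 M h4).hF s qs hqs : FF M) : FBar Kbar M))
    (fb : LaurentSeries k) (hfb : fb ∈ modularFunctionFieldFullC k M₁) (hfb0 : fb ≠ 0)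
    (heq : ((resFk A π M ℓ hπ hℓM ⟨(Forms.formsData4 M h4).hF s qs hqs, hmem⟩ : Fk k M) :
        LaurentSeries k) * (HahnSeries.single (1 : ℤ) (1 : k) * D (TLine4.x4k k)) =
      HahnSeries.single (1 : ℤ) (1 : k) * D fb / fb)
    (γ : SL(2, ℤ)) (hγ : γ ∈ Gamma0 M₁) :
    ∃ Z : LaurentSeries A, zL M (fsl s γ) = coeffMap iota (embA A Z) ∧
      redA A π Z = qExpand k M (HahnSeries.single (1 : ℤ) (1 : k) * D fb / fb) := by
  classical
  have hNk : ((M : ℕ) : k) ≠ 0 := natCast_ne_zero_of_not_dvd M ℓ hℓM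
  set AD := Forms.formsData4 M h4 with hAD
  -- the Hauptmodul
  set tL : FBar Kbar M := ⟨L4.x4K, L4.x4K_mem_of_dvd h4⟩ with htL
  have htLcoe : (tL : LaurentSeries Kbar) = coeffMap (Int.castRingHom Kbar) L4.x4 := rfl
  have htF : AD.tF = tL := Forms.formsData4_tF M h4
  have htLmem : tL ∈ OvVal A π M ℓ hπ hℓM := intElt_mem_OvVal π ℓ hπ hℓM htLcoe
  have htLint : IsIntegral Kbar[X] tL := by
    have h1 := Forms.isIntegral_bar_of_rel M L4.x4K (L4.x4K_mem_of_dvd h4) L4.P4 L4.Q4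
      Forms.monic_P4
      (Polynomial.degree_lt_degree (by rw [L4.natDegree_P4, L4.natDegree_Q4]; norm_num))
      L4.rel_x4K.symm
    rw [jF_setup_eq] at h1
    exact (isIntegral_polyF_iff (jF Kbar M) rfl _).mpr h1
  set t0 : Fk k M := resFk A π M ℓ hπ hℓM ⟨tL, htLmem⟩ with ht0
  have ht0coe : (t0 : LaurentSeries k) = TLine4.x4k k := coe_resFk_intElt π ℓ hπ hℓM htLcoe
  set hb : Fk k M := resFk A π M ℓ hπ hℓM ⟨AD.hF s qs hqs, hmem⟩ with hhb
  set fbM : Fk k M := ⟨fb, full_degeneracyC_le k hM hfb⟩ with hfbM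
  have hfbM0 : fbM ≠ 0 := fun h0 => hfb0 (congrArg Subtype.val h0)
  -- the chain rule
  haveI : Algebra.IsSeparable k⟮t0⟯ (Fk k M) := TLineHurwitz.isSeparable_t4 M hNk t0 ht0coe
  have hth := theta_x4k_ne_zero (k := k)
  have hDt : D (t0 : LaurentSeries k) ≠ 0 := by
    rw [ht0coe]
    exact right_ne_zero_of_mul hth
  have hq1 : HahnSeries.single (1 : ℤ) (1 : k) ≠ 0 := left_ne_zero_of_mul hth
  have hfh : ((hb * fbM : Fk k M) : LaurentSeries k) * D (t0 : LaurentSeries k) =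
      D (fbM : LaurentSeries k) := by
    have h1 : (hb : LaurentSeries k) * (HahnSeries.single (1 : ℤ) (1 : k) * D (TLine4.x4k k)) * fb
        = HahnSeries.single (1 : ℤ) (1 : k) * D fb := by
      rw [heq, div_mul_cancel₀ _ hfb0]
    apply mul_left_cancel₀ hq1
    rw [← h1, ht0coe]
    show _ * ((hb : LaurentSeries k) * fb * _) = _
    ring
  have hchain := chain_rule (Fk k M) ℓ t0 hDt fbM (hb * fbM) hfh
  -- the cusp embedding attached to `γ`
  obtain ⟨σ, hσ⟩ := exists_emb_eq_tau M γ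
  have hστ : ∀ x : FF M, tau M γ x = coeffMap iota (embF σ x) := fun x =>
    (DFunLike.congr_fun hσ x).symm
  obtain ⟨Z0, hZ0, hZ0red⟩ := red_term ℓ A π hπ hℓM σ ⟨AD.hF s qs hqs, hmem⟩ ⟨tL, htLmem⟩
    hint htLint
  obtain ⟨u, hu⟩ := isUnit_natCast_A A π M ℓ hπ hℓM
  refine ⟨HahnSeries.C ((u⁻¹ : Aˣ) : A) * (HahnSeries.single (1 : ℤ) (1 : A) * Z0), ?_, ?_⟩
  · rw [zL_fsl_eq AD s qs hqs γ, hστ, htF, hστ, ← Forms.coeffMap_D, ← map_mul]
    have e1 : embF σ (AD.hF s qs hqs) * D (embF σ tL) = embA A Z0 := hZ0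
    rw [e1, map_mul, map_mul, map_mul, map_mul, embA_C, embA_single]
    have e2 : iota (((u⁻¹ : Aˣ) : A) : Kbar) = ((M : ℕ) : ℂ)⁻¹ := by
      have h1 : (((u⁻¹ : Aˣ) : A) : Kbar) * ((M : ℕ) : Kbar) = 1 := by
        have h2 : ((u⁻¹ : Aˣ) : A) * ((M : ℕ) : A) = 1 := by rw [← hu, Units.inv_mul]
        have := congrArg (fun x : A => (x : Kbar)) h2
        simpa using this
      have h3 := congrArg iota h1
      rw [map_mul, map_one, map_natCast] at h3
      exact eq_inv_of_mul_eq_one_left h3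
    have e3 : coeffMap iota (HahnSeries.C (((u⁻¹ : Aˣ) : A) : Kbar)) =
        HahnSeries.C (((M : ℕ) : ℂ)⁻¹) := by
      rw [HahnSeries.C_apply, coeffMap_single, e2, HahnSeries.C_apply]
    have e4 : coeffMap iota (HahnSeries.single (1 : ℤ) (((1 : A) : Kbar))) =
        HahnSeries.single (1 : ℤ) (1 : ℂ) := by
      rw [coeffMap_single]
      simp
    rw [e3, e4]
  · rw [map_mul, map_mul, redA_C, redA_single, hZ0red, map_one]
    have hσb := redEmb_std_on_sub ℓ A π hπ hℓM hM hγ σ hσ fb hfb (full_degeneracyC_le k hM hfb)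
    have h1 : (redEmb A π M ℓ hπ hℓM σ).1 hb * D ((redEmb A π M ℓ hπ hℓM σ).1 t0) =
        D (qExpand k M fb) / qExpand k M fb := by
      have h2 := hchain (redEmb A π M ℓ hπ hℓM σ).1
      rw [map_mul] at h2
      have h3 : (redEmb A π M ℓ hπ hℓM σ).1 fbM = qExpand k M fb := hσb
      rw [h3] at h2
      have h4 : qExpand k M fb ≠ 0 := fun h0 =>
        hfb0 (qExpand_injective (N := M) (by rw [h0, map_zero]))
      rw [eq_div_iff h4, ← h2]
      ring
    rw [h1, ← mul_div_assoc, theta_qExpand, map_div₀, mul_div_assoc, ← mul_assoc, ← map_mul]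
    have h5 : π ((u⁻¹ : Aˣ) : A) * ((M : ℕ) : k) = 1 := by
      have h2 : ((u⁻¹ : Aˣ) : A) * ((M : ℕ) : A) = 1 := by rw [← hu, Units.inv_mul]
      have := congrArg π h2
      rwa [map_mul, map_natCast, map_one] at this
    rw [h5, map_one, one_mul]

end Step2

section Step3

variable {M₁ M : ℕ} [NeZero M₁] [NeZero M] (ℓ : ℕ) [Fact ℓ.Prime] (A : ValuationSubring Kbar)
  {k : Type} [Field k] [IsAlgClosed k] [CharP k ℓ] (π : A →+* k)
  (hπ : Function.Surjective π) (hℓM : ¬ ℓ ∣ M)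

theorem coeff_qExpansion_sum_smul {N : ℕ} [NeZero N] {g : ℕ}
    (f : Fin g → CuspForm (Gamma0 N) 2) (qf : Fin g → PowerSeries ℤ)
    (hqf : ∀ i, qExpansion 1 (f i) = (qf i).map (Int.castRingHom ℂ)) (b : Fin g → ℂ) (n : ℕ) :
    PowerSeries.coeff n (qExpansion 1 ((∑ i, b i • f i : CuspForm (Gamma0 N) 2) : ℍ → ℂ)) =
      ∑ i, b i * ((PowerSeries.coeff n (qf i) : ℤ) : ℂ) := by
  have h1 : PowerSeries.coeff n (qExpansion 1
      ((∑ i, b i • f i : CuspForm (Gamma0 N) 2) : ℍ → ℂ)) =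
      Fermat.Agent.S23.qMap N 2 (∑ i, b i • f i) n := rfl
  rw [h1, map_sum, Finset.sum_apply]
  refine Finset.sum_congr rfl fun i _ => ?_
  rw [map_smul, Pi.smul_apply, smul_eq_mul, Fermat.Agent.S23.qMap_apply]
  have h2 : ModularFormClass.qCoeff ((f i : CuspForm (Gamma0 N) 2) : ℍ → ℂ) n =
      PowerSeries.coeff n (qExpansion 1 (f i)) := rfl
  rw [h2, hqf i, PowerSeries.coeff_map]
  simp

theorem sum_C_mul_ofPowerSeries {g : ℕ} (x : Fin g → k) (p : Fin g → PowerSeries k) :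
    ∑ j, HahnSeries.C (x j) * HahnSeries.ofPowerSeries ℤ k (p j) =
      HahnSeries.ofPowerSeries ℤ k (∑ j, x j • p j) := by
  rw [map_sum]
  refine Finset.sum_congr rfl fun j _ => ?_
  rw [ofPowerSeries_smul]

include hπ hℓM in
/-- **DESC: descent of logarithmic differentials from level `M` to level `M₁ ∣ M`.** -/
theorem desc (hM : M₁ ∣ M) (h4 : 4 ∣ M)
    (hidx : ¬ ℓ ∣ (Gamma0 M).relIndex (Gamma0 M₁))
    {g : ℕ} (f : Fin g → CuspForm (Gamma0 M) 2) (qf : Fin g → PowerSeries ℤ)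
    (hqf : ∀ i, qExpansion 1 (f i) = (qf i).map (Int.castRingHom ℂ))
    {g₁ : ℕ} (f₁ : Fin g₁ → CuspForm (Gamma0 M₁) 2) (qf₁ : Fin g₁ → PowerSeries ℤ)
    (hqf₁ : ∀ j, qExpansion 1 (f₁ j) = (qf₁ j).map (Int.castRingHom ℂ))
    (hspan₁ : Submodule.span ℂ (Set.range f₁) = ⊤)
    (hsat₁ : LinearIndependent k (fun j => (qf₁ j).map (Int.castRingHom k)))
    (fb : LaurentSeries k) (hfb : fb ∈ modularFunctionFieldFullC k M₁) (hfb0 : fb ≠ 0)
    (c : Fin g → k)
    (h : ∑ i, HahnSeries.C (c i) *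
        HahnSeries.ofPowerSeries ℤ k ((qf i).map (Int.castRingHom k)) =
      HahnSeries.single (1 : ℤ) (1 : k) * D fb / fb) :
    ∃ c₁ : Fin g₁ → k,
      ∑ j, HahnSeries.C (c₁ j) *
          HahnSeries.ofPowerSeries ℤ k ((qf₁ j).map (Int.castRingHom k)) =
        HahnSeries.single (1 : ℤ) (1 : k) * D fb / fb := by
  classical
  set gx : LaurentSeries k := HahnSeries.single (1 : ℤ) (1 : k) * D fb / fb with hgx
  obtain ⟨s, qs, hqs, hmem, hint, heq⟩ := exists_lift ℓ A π hπ hℓM h4 f qf hqf c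
  rw [h] at heq
  obtain ⟨G, ι, hι, r, hr, hcard, hG⟩ := exists_trace_reps (M₁ := M₁) s
  have hzq := qExpand_trace_eq s G r hG
  choose Z hZ1 hZ2 using fun i =>
    term_red ℓ A π hπ hℓM hM h4 s qs hqs hmem hint fb hfb hfb0 heq (r i) (hr i)
  set Zs : LaurentSeries A := ∑ i, Z i with hZs
  have hG1 : qExpand ℂ M (HahnSeries.ofPowerSeries ℤ ℂ (qExpansion 1 (G : ℍ → ℂ))) =
      coeffMap iota (embA A Zs) := by
    rw [hzq, hZs, map_sum, map_sum]
    exact Finset.sum_congr rfl fun i _ => hZ1 i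
  have hred : redA A π Zs = qExpand k M (HahnSeries.C ((Fintype.card ι : ℕ) : k) * gx) := by
    rw [hZs, map_sum, Finset.sum_congr rfl (fun i _ => hZ2 i), Finset.sum_const, Finset.card_univ,
      nsmul_eq_mul, map_mul, qExpand_C, ← map_natCast (HahnSeries.C : k →+* LaurentSeries k)]
  -- the integral `q`-expansion of the trace
  set Q : ℕ → A := fun n => Zs.coeff ((M : ℤ) * (n : ℤ)) with hQ
  have hQG : ∀ n : ℕ, PowerSeries.coeff n (qExpansion 1 (G : ℍ → ℂ)) = iota ((Q n : A) : Kbar) := by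
    intro n
    have h1 := coeff_of_qExpand_eq M hG1 (n : ℤ)
    rw [HahnSeries.ofPowerSeries_apply_coeff, coeffMap_coeff, embA_coeff] at h1
    exact h1
  have hQred : ∀ n : ℕ, π (Q n) = ((Fintype.card ι : ℕ) : k) * gx.coeff (n : ℤ) := by
    intro n
    have h1 := coeff_of_qExpand_eq M hred.symm (n : ℤ)
    rw [redA_coeff, HahnSeries.C_apply, coeff_single_mul', sub_zero] at h1
    exact h1.symm
  -- coordinates of the trace in the saturated basis
  have hGmem : G ∈ Submodule.span ℂ (Set.range f₁) := by rw [hspan₁]; trivial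
  obtain ⟨b, hb⟩ := (Submodule.mem_span_range_iff_exists_fun ℂ).mp hGmem
  have hQb : ∀ n : ℕ, iota ((Q n : A) : Kbar) =
      ∑ j, b j * ((PowerSeries.coeff n (qf₁ j) : ℤ) : ℂ) := by
    intro n
    rw [← hQG n, ← hb]
    exact coeff_qExpansion_sum_smul f₁ qf₁ hqf₁ b n
  have hsat' : LinearIndependent k
      (fun j => fun n : ℕ => ((PowerSeries.coeff n (qf₁ j) : ℤ) : k)) := by
    have h1 := hsat₁.map' (Forms.coeffSeq k) (by
      rw [LinearMap.ker_eq_bot]
      intro p q hpq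
      ext n
      exact congrFun hpq n)
    have h2 : (fun j => fun n : ℕ => ((PowerSeries.coeff n (qf₁ j) : ℤ) : k)) =
        (⇑(Forms.coeffSeq k) ∘ fun j => (qf₁ j).map (Int.castRingHom k)) := by
      funext j n
      simp [Forms.coeffSeq_apply]
    rw [h2]
    exact h1
  obtain ⟨β, hβ⟩ := exists_integral_coord A π iota hπ
    (fun j n => PowerSeries.coeff n (qf₁ j)) hsat' Q b hQb
  -- conclusion
  have hcard0 : ((Fintype.card ι : ℕ) : k) ≠ 0 := by
    rw [hcard, Ne, CharP.cast_eq_zero_iff k ℓ]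
    exact hidx
  refine ⟨fun j => π (β j) / ((Fintype.card ι : ℕ) : k), ?_⟩
  rw [sum_C_mul_ofPowerSeries, ← h, sum_C_mul_ofPowerSeries]
  congr 1
  ext n
  have h1 : gx.coeff (n : ℤ) = PowerSeries.coeff n (∑ i, c i • (qf i).map (Int.castRingHom k)) := by
    rw [← h, sum_C_mul_ofPowerSeries, HahnSeries.ofPowerSeries_apply_coeff]
  have h2 := hQred n
  rw [hβ n, map_sum, h1] at h2
  rw [← mul_right_inj' hcard0, ← h2, map_sum, Finset.mul_sum]
  refine Finset.sum_congr rfl fun j _ => ?_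
  rw [PowerSeries.coeff_smul, PowerSeries.coeff_map, smul_eq_mul, map_mul, map_intCast]
  field_simp
  simp

end Step3

end Fermat.Agent.S40x.C2.DescB
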