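import Mathlib
import Fermat.Agent.S40x.C2.DescB.Main

/-!
# P-S44 (C2, leaf DESC, second): the descent in the `j`-form of note 2775

`exists_cuspForm_of_descends`: levels `M' ∣ Mh`, `4 ∣ Mh`, `ℓ ∤ Mh`, `ℓ ∤ [Γ₀(M') : Γ₀(Mh)]`.  If `s` is a
weight two cusp form of level `Mh` with `A`-integral `q`-expansion `qs` whose reduction is a
differential of the lower special fibre, `red qs = y₀ * (q dj/dq)` with `y₀ ∈ Fk k M'`, then there is a
weight two cusp form `s'` of level `M'` with `A`-integral `q`-expansion and the same reduction.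
This is literally the hypothesis `hdesc` of `Descent.SpanDescends.mem_span_of_descends`,
`Descent.OmegaDescended.exists_basis_hOmega_descended` and `AsmMain`.

Proof: `s' = d⁻¹ Tr s` (`d = [Γ₀(M') : Γ₀(Mh)]`, a unit of `A`), termwise as in `Main.lean`, with the
general chain rule `chain_rule_gen` (`h dt = y dw` through one embedding ⟹ through every embedding).
-/

set_option autoImplicit false
set_option linter.unusedSectionVars false
set_option linter.style.haveILetI false

open UpperHalfPlane ModularCurve CongruenceSubgroup IntermediateField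
open scoped MatrixGroups

noncomputable section

namespace Fermat.Agent.S40x.C2.DescB

open Polynomial Fermat.Agent.S28 Fermat.Agent.S28.Tower Fermat.Agent.Gateway.Red
open Fermat.Agent.S24.Setup Fermat.Agent.Lib.Residue Fermat.Agent.Gateway.AuxLevel
open Fermat.Agent.Gateway.GoodRed Fermat.Agent.Gateway.GoodRed.Forms
open Fermat.Agent.Gateway.GoodRed.ConjFamily

attribute [local instance] algebraRF algebraPolyF

section Chain

variable {k : Type*} [Field k] [PerfectField k] (K : IntermediateField k (LaurentSeries k))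

/-- **Chain rule, general form.**  If `h dt = y dw` in `k((q))` then `τ h d(τ t) = τ y d(τ w)` for
every ring hom `τ : K → k((z))`. -/
theorem chain_rule_gen (p : ℕ) [hp : Fact p.Prime] [CharP k p] (t : K)
    [Algebra.IsSeparable k⟮t⟯ K] (hDt : D (t : LaurentSeries k) ≠ 0) (w y h : K)
    (hyp : (h : LaurentSeries k) * D (t : LaurentSeries k) =
      (y : LaurentSeries k) * D (w : LaurentSeries k))
    (τ : K →+* LaurentSeries k) : τ h * D (τ t) = τ y * D (τ w) := by
  haveI : CharP K p := charP_of_injective_algebraMap (algebraMap k K).injective p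
  have htop := DerivKernel.adjoin_pow_eq_top (k := k) (K := K) p t
  obtain ⟨g, hg⟩ := exists_universal_deriv (κ := k) p t htop w
  have h0 : D (w : LaurentSeries k) = (g : LaurentSeries k) * D (t : LaurentSeries k) :=
    hg (algebraMap K (LaurentSeries k))
  have h1 : ((h : LaurentSeries k) - (y : LaurentSeries k) * (g : LaurentSeries k)) *
      D (t : LaurentSeries k) = 0 := by
    rw [sub_mul, hyp, h0]
    ring
  have h2 : (h : LaurentSeries k) = (y : LaurentSeries k) * (g : LaurentSeries k) :=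
    sub_eq_zero.mp ((mul_eq_zero.mp h1).resolve_right hDt)
  have h3 : h = y * g := Subtype.ext h2
  rw [h3, map_mul, hg τ]
  ring

end Chain

section Lift

variable {M : ℕ} [NeZero M] (ℓ : ℕ) [Fact ℓ.Prime] (A : ValuationSubring Kbar)
  {k : Type} [Field k] [IsAlgClosed k] [CharP k ℓ] (π : A →+* k)
  (hπ : Function.Surjective π) (hℓM : ¬ ℓ ∣ M)

theorem map_map_subtype_iota (qs : PowerSeries A) :
    (qs.map A.subtype).map iota = qs.map (iota.comp A.subtype) := by
  ext n
  simp [PowerSeries.coeff_map]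

/-- **Step 1 for an arbitrary `A`-integral form.** -/
theorem exists_hb (h4 : 4 ∣ M) (s : CuspForm (Gamma0 M) 2) (qs : PowerSeries A)
    (hqs : qExpansion 1 (s : ℍ → ℂ) = (qs.map A.subtype).map iota) :
    ∃ (hmem : (Forms.formsData4 M h4).hF s (qs.map A.subtype) hqs ∈ OvVal A π M ℓ hπ hℓM),
      IsIntegral Kbar[X]
        (((Forms.formsData4 M h4).hF s (qs.map A.subtype) hqs : FF M) : FBar Kbar M) ∧
      ((resFk A π M ℓ hπ hℓM ⟨(Forms.formsData4 M h4).hF s (qs.map A.subtype) hqs, hmem⟩ :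
          Fk k M) : LaurentSeries k) * (HahnSeries.single (1 : ℤ) (1 : k) * D (TLine4.x4k k)) =
        HahnSeries.ofPowerSeries ℤ k (qs.map π) := by
  classical
  set AD := Forms.formsData4 M h4 with hAD
  have htq : AD.tq = coeffMap (Int.castRingHom Kbar) L4.x4 := Forms.formsData4_tq' M h4
  obtain ⟨u, hu⟩ := HahnSeries.isUnit_iff.mpr L4.isUnit_leadingCoeff_x4
  have hG : coeffMap (Int.castRingHom Kbar)
      (HahnSeries.single (1 : ℤ) (1 : ℤ) * D L4.x4) = Gq AD.tq := by
    rw [Gq, htq, map_mul, coeffMap_single, map_one, Forms.coeffMap_D]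
  have hcoe : ((AD.hF s (qs.map A.subtype) hqs : FF M) : LaurentSeries Kbar) =
      embA A (HahnSeries.ofPowerSeries ℤ A qs * intA A ((↑u⁻¹ : LaurentSeries ℤ))) := by
    show hq AD.tq _ = _
    rw [hq, div_eq_iff AD.Gq_ne_zero, ← hG, ← hu, map_mul, embA_intA, mul_assoc, ← map_mul,
      Units.inv_mul, map_one, mul_one, embA, coeffMap_ofPowerSeries]
  have hmem : AD.hF s (qs.map A.subtype) hqs ∈ OvVal A π M ℓ hπ hℓM := by
    rw [mem_OvVal_iff, mem_Ov_iff, hcoe]
    exact embA_mem_gaussRing A π _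
  refine ⟨hmem, ?_, ?_⟩
  · have h1 := AD.hF_isIntegral s _ hqs
    rw [jF_setup_eq] at h1
    exact (isIntegral_polyF_iff (jF Kbar M) rfl _).mpr h1
  · have hGk : HahnSeries.single (1 : ℤ) (1 : k) * D (TLine4.x4k k) =
        coeffMap (Int.castRingHom k) (HahnSeries.single (1 : ℤ) (1 : ℤ) * D L4.x4) := by
      rw [map_mul, coeffMap_single, ← D_coeffMap, eq_intCast, Int.cast_one]
      rfl
    rw [coe_resFk, redV_of_eq_embA A π (FBar Kbar M) _ hcoe, map_mul, redA_intA, hGk, ← hu,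
      mul_assoc, ← map_mul, Units.inv_mul, map_one, mul_one, redA, coeffMap_ofPowerSeries]

end Lift

section Term

variable {M : ℕ} [NeZero M] (ℓ : ℕ) [Fact ℓ.Prime] (A : ValuationSubring Kbar)
  {k : Type} [Field k] [IsAlgClosed k] [CharP k ℓ] (π : A →+* k)
  (hπ : Function.Surjective π) (hℓM : ¬ ℓ ∣ M)

/-- **One term of the trace, general form**: the reduced differential is `y dw` with `y, w` in the
lower special fibre `Fk k M₁`. -/
theorem term_red_gen {M₁ : ℕ} [NeZero M₁] (hM : M₁ ∣ M) (h4 : 4 ∣ M)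
    (s : CuspForm (Gamma0 M) 2) (qs : PowerSeries Kbar)
    (hqs : qExpansion 1 (s : ℍ → ℂ) = qs.map iota)
    (hmem : (Forms.formsData4 M h4).hF s qs hqs ∈ OvVal A π M ℓ hπ hℓM)
    (hint : IsIntegral Kbar[X] (((Forms.formsData4 M h4).hF s qs hqs : FF M) : FBar Kbar M))
    (y w : LaurentSeries k) (hy : y ∈ modularFunctionFieldFullC k M₁)
    (hw : w ∈ modularFunctionFieldFullC k M₁)
    (heq : ((resFk A π M ℓ hπ hℓM ⟨(Forms.formsData4 M h4).hF s qs hqs, hmem⟩ : Fk k M) :
        LaurentSeries k) * (HahnSeries.single (1 : ℤ) (1 : k) * D (TLine4.x4k k)) =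
      y * (HahnSeries.single (1 : ℤ) (1 : k) * D w))
    (γ : SL(2, ℤ)) (hγ : γ ∈ Gamma0 M₁) :
    ∃ Z : LaurentSeries A, zL M (fsl s γ) = coeffMap iota (embA A Z) ∧
      redA A π Z = qExpand k M (y * (HahnSeries.single (1 : ℤ) (1 : k) * D w)) := by
  classical
  have hNk : ((M : ℕ) : k) ≠ 0 := natCast_ne_zero_of_not_dvd M ℓ hℓM
  set AD := Forms.formsData4 M h4 with hAD
  -- the Hauptmodul
  set tL : FBar Kbar M := ⟨L4.x4K, L4.x4K_mem_of_dvd h4⟩ with htL
  have htLcoe : (tL : LaurentSeries Kbar) = coeffMap (Int.castRingHom Kbar) L4.x4 := rfl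
  have htF : AD.tF = tL := Forms.formsData4_tF M h4
  have htLmem : tL ∈ OvVal A π M ℓ hπ hℓM := intElt_mem_OvVal π ℓ hπ hℓM htLcoe
  have htLint : IsIntegral Kbar[X] tL := by
    have h1 := Forms.isIntegral_bar_of_rel M L4.x4K (L4.x4K_mem_of_dvd h4) L4.P4 L4.Q4
      Forms.monic_P4
      (Polynomial.degree_lt_degree (by rw [L4.natDegree_P4, L4.natDegree_Q4]; norm_num))
      L4.rel_x4K.symm
    rw [jF_setup_eq] at h1
    exact (isIntegral_polyF_iff (jF Kbar M) rfl _).mpr h1
  set t0 : Fk k M := resFk A π M ℓ hπ hℓM ⟨tL, htLmem⟩ with ht0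
  have ht0coe : (t0 : LaurentSeries k) = TLine4.x4k k := coe_resFk_intElt π ℓ hπ hℓM htLcoe
  set hb : Fk k M := resFk A π M ℓ hπ hℓM ⟨AD.hF s qs hqs, hmem⟩ with hhb
  set yM : Fk k M := ⟨y, full_degeneracyC_le k hM hy⟩ with hyM
  set wM : Fk k M := ⟨w, full_degeneracyC_le k hM hw⟩ with hwM
  -- the chain rule
  haveI : Algebra.IsSeparable k⟮t0⟯ (Fk k M) := TLineHurwitz.isSeparable_t4 M hNk t0 ht0coe
  have hth := theta_x4k_ne_zero (k := k)
  have hDt : D (t0 : LaurentSeries k) ≠ 0 := by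
    rw [ht0coe]
    exact right_ne_zero_of_mul hth
  have hq1 : HahnSeries.single (1 : ℤ) (1 : k) ≠ 0 := left_ne_zero_of_mul hth
  have hfh : (hb : LaurentSeries k) * D (t0 : LaurentSeries k) =
      (yM : LaurentSeries k) * D (wM : LaurentSeries k) := by
    apply mul_left_cancel₀ hq1
    rw [ht0coe]
    show _ * ((hb : LaurentSeries k) * _) = _ * (y * D w)
    calc HahnSeries.single (1 : ℤ) (1 : k) * ((hb : LaurentSeries k) * D (TLine4.x4k k))
        = (hb : LaurentSeries k) * (HahnSeries.single (1 : ℤ) (1 : k) * D (TLine4.x4k k)) := by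
          ring
      _ = y * (HahnSeries.single (1 : ℤ) (1 : k) * D w) := heq
      _ = _ := by ring
  have hchain := chain_rule_gen (Fk k M) ℓ t0 hDt wM yM hb hfh
  -- the cusp embedding attached to `γ`
  obtain ⟨σ, hσ⟩ := exists_emb_eq_tau M γ
  have hστ : ∀ x : FF M, tau M γ x = coeffMap iota (embF σ x) := fun x =>
    (DFunLike.congr_fun hσ x).symm
  obtain ⟨Z0, hZ0, hZ0red⟩ := red_term ℓ A π hπ hℓM σ ⟨AD.hF s qs hqs, hmem⟩ ⟨tL, htLmem⟩
    hint htLint
  obtain ⟨u, hu⟩ := isUnit_natCast_A A π M ℓ hπ hℓM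
  refine ⟨HahnSeries.C ((u⁻¹ : Aˣ) : A) * (HahnSeries.single (1 : ℤ) (1 : A) * Z0), ?_, ?_⟩
  · rw [zL_fsl_eq AD s qs hqs γ, hστ, htF, hστ, ← Forms.coeffMap_D, ← map_mul]
    have e1 : embF σ (AD.hF s qs hqs) * D (embF σ tL) = embA A Z0 := hZ0
    rw [e1, map_mul, map_mul, map_mul, map_mul, embA_C, embA_single]
    have e2 : iota (((u⁻¹ : Aˣ) : A) : Kbar) = ((M : ℕ) : ℂ)⁻¹ := by
      have h1 : (((u⁻¹ : Aˣ) : A) : Kbar) * ((M : ℕ) : Kbar) = 1 := by
        have h2 : ((u⁻¹ : Aˣ) : A) * ((M : ℕ) : A) = 1 := by rw [← hu, Units.inv_mul]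
        have := congrArg (fun x : A => (x : Kbar)) h2
        simpa using this
      have h3 := congrArg iota h1
      rw [map_mul, map_one, map_natCast] at h3
      exact eq_inv_of_mul_eq_one_left h3
    have e3 : coeffMap iota (HahnSeries.C (((u⁻¹ : Aˣ) : A) : Kbar)) =
        HahnSeries.C (((M : ℕ) : ℂ)⁻¹) := by
      rw [HahnSeries.C_apply, coeffMap_single, e2, HahnSeries.C_apply]
    have e4 : coeffMap iota (HahnSeries.single (1 : ℤ) (((1 : A) : Kbar))) =
        HahnSeries.single (1 : ℤ) (1 : ℂ) := by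
      rw [coeffMap_single]
      simp
    rw [e3, e4]
  · rw [map_mul, map_mul, redA_C, redA_single, hZ0red, map_one]
    have hσy := redEmb_std_on_sub ℓ A π hπ hℓM hM hγ σ hσ y hy (full_degeneracyC_le k hM hy)
    have hσw := redEmb_std_on_sub ℓ A π hπ hℓM hM hγ σ hσ w hw (full_degeneracyC_le k hM hw)
    have h1 : (redEmb A π M ℓ hπ hℓM σ).1 hb * D ((redEmb A π M ℓ hπ hℓM σ).1 t0) =
        qExpand k M y * D (qExpand k M w) := by
      have h2 := hchain (redEmb A π M ℓ hπ hℓM σ).1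
      have h3 : (redEmb A π M ℓ hπ hℓM σ).1 yM = qExpand k M y := hσy
      have h4 : (redEmb A π M ℓ hπ hℓM σ).1 wM = qExpand k M w := hσw
      rw [h3, h4] at h2
      exact h2
    have h5 : π ((u⁻¹ : Aˣ) : A) * ((M : ℕ) : k) = 1 := by
      have h2 : ((u⁻¹ : Aˣ) : A) * ((M : ℕ) : A) = 1 := by rw [← hu, Units.inv_mul]
      have := congrArg π h2
      rwa [map_mul, map_natCast, map_one] at this
    rw [h1]
    calc HahnSeries.C (π ((u⁻¹ : Aˣ) : A)) *
          (HahnSeries.single (1 : ℤ) (1 : k) * (qExpand k M y * D (qExpand k M w)))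
        = HahnSeries.C (π ((u⁻¹ : Aˣ) : A)) * (qExpand k M y *
            (HahnSeries.single (1 : ℤ) (1 : k) * D (qExpand k M w))) := by ring
      _ = HahnSeries.C (π ((u⁻¹ : Aˣ) : A)) * (qExpand k M y *
            (HahnSeries.C ((M : ℕ) : k) *
              qExpand k M (HahnSeries.single (1 : ℤ) (1 : k) * D w))) := by rw [theta_qExpand]
      _ = HahnSeries.C (π ((u⁻¹ : Aˣ) : A) * ((M : ℕ) : k)) * (qExpand k M y *
            qExpand k M (HahnSeries.single (1 : ℤ) (1 : k) * D w)) := by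
          have e : (HahnSeries.C (π ((u⁻¹ : Aˣ) : A) * ((M : ℕ) : k)) : LaurentSeries k) =
              HahnSeries.C (π ((u⁻¹ : Aˣ) : A)) * HahnSeries.C ((M : ℕ) : k) := map_mul _ _ _
          rw [e]; ring
      _ = _ := by rw [h5, map_one, one_mul, ← map_mul]

end Term

section Final

variable (ℓ : ℕ) [Fact ℓ.Prime] (A : ValuationSubring Kbar)
  {k : Type} [Field k] [IsAlgClosed k] [CharP k ℓ] (π : A →+* k)
  (hπ : Function.Surjective π)

include hπ in
/-- **DESC in the `j`-form of note 2775** (= the hypothesis `hdesc` of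
`Descent.SpanDescends.mem_span_of_descends`, `Descent.OmegaDescended.exists_basis_hOmega_descended`
and `AsmMain`). -/
theorem exists_cuspForm_of_descends {M' Mh : ℕ} [NeZero M'] [NeZero Mh] (hM : M' ∣ Mh)
    (h4 : 4 ∣ Mh) (hℓM : ¬ ℓ ∣ Mh) (hidx : ¬ ℓ ∣ (Gamma0 Mh).relIndex (Gamma0 M'))
    (s : CuspForm (Gamma0 Mh) 2) (qs : PowerSeries A)
    (hqs : qExpansion 1 s = qs.map (iota.comp A.subtype))
    (y0 : LaurentSeries k) (hy0 : y0 ∈ Fk k M')
    (hred : HahnSeries.ofPowerSeries ℤ k (qs.map π) =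
      y0 * (HahnSeries.single (1 : ℤ) (1 : k) * D (jqModC k))) :
    ∃ (s' : CuspForm (Gamma0 M') 2) (qs' : PowerSeries A),
      qExpansion 1 s' = qs'.map (iota.comp A.subtype) ∧ qs'.map π = qs.map π := by
  classical
  have hqs' : qExpansion 1 (s : ℍ → ℂ) = (qs.map A.subtype).map iota := by
    rw [map_map_subtype_iota]; exact hqs
  obtain ⟨hmem, hint, heq⟩ := exists_hb ℓ A π hπ hℓM h4 s qs hqs'
  rw [hred] at heq
  have hjmem : jqModC k ∈ modularFunctionFieldFullC k M' := jqModC_mem_full k M'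
  obtain ⟨G, ι, hι, r, hr, hcard, hG⟩ := exists_trace_reps (M₁ := M') s
  have hzq := qExpand_trace_eq s G r hG
  choose Z hZ1 hZ2 using fun i =>
    term_red_gen ℓ A π hπ hℓM hM h4 s (qs.map A.subtype) hqs' hmem hint y0 (jqModC k) hy0 hjmem
      heq (r i) (hr i)
  set Zs : LaurentSeries A := ∑ i, Z i with hZs
  have hG1 : qExpand ℂ Mh (HahnSeries.ofPowerSeries ℤ ℂ (qExpansion 1 (G : ℍ → ℂ))) =
      coeffMap iota (embA A Zs) := by
    rw [hzq, hZs, map_sum, map_sum]
    exact Finset.sum_congr rfl fun i _ => hZ1 i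
  have hredZ : redA A π Zs = qExpand k Mh (HahnSeries.C ((Fintype.card ι : ℕ) : k) *
      HahnSeries.ofPowerSeries ℤ k (qs.map π)) := by
    have e1 : qExpand k Mh (HahnSeries.C ((Fintype.card ι : ℕ) : k) *
        HahnSeries.ofPowerSeries ℤ k (qs.map π)) = ((Fintype.card ι : ℕ) : LaurentSeries k) *
          qExpand k Mh (HahnSeries.ofPowerSeries ℤ k (qs.map π)) := by
      rw [map_mul, qExpand_C, map_natCast]
    rw [e1, hred, hZs, map_sum, Finset.sum_congr rfl (fun i _ => hZ2 i), Finset.sum_const,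
      Finset.card_univ, nsmul_eq_mul]
  -- the integral `q`-expansion of the trace
  set Q : ℕ → A := fun n => Zs.coeff ((Mh : ℤ) * (n : ℤ)) with hQ
  have hQG : ∀ n : ℕ, PowerSeries.coeff n (qExpansion 1 (G : ℍ → ℂ)) = iota ((Q n : A) : Kbar) := by
    intro n
    have h1 := coeff_of_qExpand_eq Mh hG1 (n : ℤ)
    rw [HahnSeries.ofPowerSeries_apply_coeff, coeffMap_coeff, embA_coeff] at h1
    exact h1
  have hQred : ∀ n : ℕ, π (Q n) = ((Fintype.card ι : ℕ) : k) * π (PowerSeries.coeff n qs) := by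
    intro n
    have h1 := coeff_of_qExpand_eq Mh hredZ.symm (n : ℤ)
    rw [redA_coeff, HahnSeries.C_apply, coeff_single_mul', sub_zero,
      HahnSeries.ofPowerSeries_apply_coeff, PowerSeries.coeff_map] at h1
    exact h1.symm
  -- the index is a unit of `A`
  have hcard0 : π (((Fintype.card ι : ℕ) : A)) ≠ 0 := by
    rw [map_natCast, hcard, Ne, CharP.cast_eq_zero_iff k ℓ]
    exact hidx
  obtain ⟨u, hu⟩ := isUnit_of_residue_ne_zero A π hπ hcard0
  have hu1 : π ((u⁻¹ : Aˣ) : A) * ((Fintype.card ι : ℕ) : k) = 1 := by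
    have h2 : ((u⁻¹ : Aˣ) : A) * ((Fintype.card ι : ℕ) : A) = 1 := by rw [← hu, Units.inv_mul]
    have := congrArg π h2
    rwa [map_mul, map_natCast, map_one] at this
  refine ⟨(iota.comp A.subtype) ((u⁻¹ : Aˣ) : A) • G,
    PowerSeries.mk fun n => ((u⁻¹ : Aˣ) : A) * Q n, ?_, ?_⟩
  · ext n
    have h1 : PowerSeries.coeff n (qExpansion 1
        (((iota.comp A.subtype) ((u⁻¹ : Aˣ) : A) • G : CuspForm (Gamma0 M') 2) : ℍ → ℂ)) =
        ModularFormClass.qCoeff
          (((iota.comp A.subtype) ((u⁻¹ : Aˣ) : A) • G : CuspForm (Gamma0 M') 2) : ℍ → ℂ) n := rfl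
    rw [h1, Fermat.Agent.S23.qCoeff_smul, PowerSeries.coeff_map, PowerSeries.coeff_mk, map_mul]
    congr 1
    exact hQG n
  · ext n
    rw [PowerSeries.coeff_map, PowerSeries.coeff_mk, map_mul, hQred n, ← mul_assoc, hu1, one_mul,
      PowerSeries.coeff_map]

end Final

end Fermat.Agent.S40x.C2.DescB
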