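import Mathlib
import Fermat.Agent.S40x.C2.DescB.MainJ
import Fermat.Agent.S40x.C2.Descent.OmegaDescended
import Fermat.Agent.S40x.C2.Descent.Index

/-!
# P-S44 (C2, leaf DESC, second): `hOmega` at the lower level, UNCONDITIONAL

`Descent.OmegaDescended.exists_basis_hOmega_descended` (helper23) with its only hypothesis `hdesc`
discharged by `DescB.exists_cuspForm_of_descends`:

* `hdesc_holds`: the hypothesis `hdesc` of `SpanDescends.mem_span_of_descends`,
  `OmegaDescended.exists_basis_hOmega_descended` and `AsmMain`, verbatim;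
* `exists_basis_hOmega_lower`: levels `M' ∣ Mh`, `4 ∣ Mh`, `ℓ ∤ Mh`, `ℓ ∤ [Γ₀(M') : Γ₀(Mh)]`: there is a
  saturated integral basis of `S₂(Γ₀(M'))` such that `dlog fb` lies in the `k`-span of its reduction
  for every `fb ≠ 0` in `Fk k M'` all of whose orders on `Fk k Mh` are divisible by `ℓ`;
* `exists_basis_hOmega_lcm_four`: the case `Mh = lcm(4, M')`, `ℓ ≥ 5`, `ℓ ∤ M'`.
-/

set_option autoImplicit false
set_option linter.unusedSectionVars false
set_option linter.style.haveILetI false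

noncomputable section

namespace Fermat.Agent.S40x.C2.DescB

open Polynomial ModularCurve Fermat.Agent.S28 Fermat.Agent.Lib.Residue
open IntermediateField HahnSeries AlgebraicCurve CongruenceSubgroup Fermat.Agent.S24.Setup
open Fermat.Agent.Gateway.GoodRed Fermat.Agent.Gateway.GoodRed.ConjFamily UpperHalfPlane

variable (ℓ : ℕ) [Fact ℓ.Prime] (A : ValuationSubring Kbar)
  {k : Type} [Field k] [IsAlgClosed k] [CharP k ℓ] (π : A →+* k)
  (hπ : Function.Surjective π)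

include hπ in
/-- **The hypothesis `hdesc`** of `SpanDescends.mem_span_of_descends`,
`OmegaDescended.exists_basis_hOmega_descended` and `AsmMain`, verbatim. -/
theorem hdesc_holds {M' Mh : ℕ} [NeZero M'] [NeZero Mh] (hM : M' ∣ Mh) (h4 : 4 ∣ Mh)
    (hℓM : ¬ ℓ ∣ Mh) (hidx : ¬ ℓ ∣ (Gamma0 Mh).relIndex (Gamma0 M')) :
    ∀ (s : CuspForm (Gamma0 Mh) 2) (qs : PowerSeries A),
      qExpansion 1 s = qs.map (iota.comp A.subtype) →
      ∀ y0 : LaurentSeries k, y0 ∈ Fk k M' →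
      HahnSeries.ofPowerSeries ℤ k (qs.map π) =
        y0 * (HahnSeries.single (1 : ℤ) (1 : k) * D (jqModC k)) →
      ∃ (s' : CuspForm (Gamma0 M') 2) (qs' : PowerSeries A),
        qExpansion 1 s' = qs'.map (iota.comp A.subtype) ∧ qs'.map π = qs.map π :=
  fun s qs hqs y0 hy0 hred =>
    exists_cuspForm_of_descends ℓ A π hπ hM h4 hℓM hidx s qs hqs y0 hy0 hred

include hπ in
/-- **`hOmega` at the lower level `M'`, unconditional.** -/
theorem exists_basis_hOmega_lower {M' Mh : ℕ} [NeZero M'] [NeZero Mh] (hM : M' ∣ Mh)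
    (h4 : 4 ∣ Mh) (hℓM : ¬ ℓ ∣ Mh) (hA : A.LiesOverPrime ℓ)
    (hidx : ¬ ℓ ∣ (Gamma0 Mh).relIndex (Gamma0 M')) :
    ∃ (f' : Fin (Module.finrank ℂ (CuspForm (Gamma0 M') 2)) → CuspForm (Gamma0 M') 2)
      (qf' : Fin (Module.finrank ℂ (CuspForm (Gamma0 M') 2)) → PowerSeries ℤ),
      (∀ j, qExpansion 1 (f' j) = (qf' j).map (Int.castRingHom ℂ)) ∧
      (∀ j, PowerSeries.constantCoeff (qf' j) = 0) ∧
      LinearIndependent ℂ f' ∧ Submodule.span ℂ (Set.range f') = ⊤ ∧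
      LinearIndependent k (fun j => (qf' j).map (Int.castRingHom k)) ∧
      ∀ fb : Fk k Mh, fb ≠ 0 → (fb : LaurentSeries k) ∈ Fk k M' →
        (∀ P : Place k (Fk k Mh), (ℓ : ℤ) ∣ P.ord fb) →
        Fermat.Agent.S40x.C2.DlogHecke.dlog (fb : LaurentSeries k) ∈
          Submodule.span k (Set.range fun j : Fin (Module.finrank ℂ (CuspForm (Gamma0 M') 2)) =>
            (HahnSeries.ofPowerSeries ℤ k ((qf' j).map (Int.castRingHom k)) :
              LaurentSeries k)) :=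
  Fermat.Agent.S40x.C2.Descent.OmegaDescended.exists_basis_hOmega_descended ℓ A π hπ hM h4 hℓM hA
    (hdesc_holds ℓ A π hπ hM h4 hℓM hidx)

include hπ in
/-- **`hOmega` at the level `M'` through `Mh = lcm(4, M')`**, `ℓ ≥ 5`, `ℓ ∤ M'`. -/
theorem exists_basis_hOmega_lcm_four (h5 : 5 ≤ ℓ) {M' : ℕ} [NeZero M'] [NeZero (Nat.lcm 4 M')]
    (hℓM' : ¬ ℓ ∣ M') (hA : A.LiesOverPrime ℓ) :
    ∃ (f' : Fin (Module.finrank ℂ (CuspForm (Gamma0 M') 2)) → CuspForm (Gamma0 M') 2)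
      (qf' : Fin (Module.finrank ℂ (CuspForm (Gamma0 M') 2)) → PowerSeries ℤ),
      (∀ j, qExpansion 1 (f' j) = (qf' j).map (Int.castRingHom ℂ)) ∧
      (∀ j, PowerSeries.constantCoeff (qf' j) = 0) ∧
      LinearIndependent ℂ f' ∧ Submodule.span ℂ (Set.range f') = ⊤ ∧
      LinearIndependent k (fun j => (qf' j).map (Int.castRingHom k)) ∧
      ∀ fb : Fk k (Nat.lcm 4 M'), fb ≠ 0 → (fb : LaurentSeries k) ∈ Fk k M' →
        (∀ P : Place k (Fk k (Nat.lcm 4 M')), (ℓ : ℤ) ∣ P.ord fb) →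
        Fermat.Agent.S40x.C2.DlogHecke.dlog (fb : LaurentSeries k) ∈
          Submodule.span k (Set.range fun j : Fin (Module.finrank ℂ (CuspForm (Gamma0 M') 2)) =>
            (HahnSeries.ofPowerSeries ℤ k ((qf' j).map (Int.castRingHom k)) :
              LaurentSeries k)) := by
  have hℓ : ℓ.Prime := Fact.out
  have hℓM : ¬ ℓ ∣ Nat.lcm 4 M' := by
    intro h
    have h1 : ℓ ∣ 4 * M' := h.trans (Nat.lcm_dvd_mul 4 M')
    rcases (Nat.Prime.dvd_mul hℓ).mp h1 with h2 | h2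
    · have h3 : ℓ ≤ 4 := Nat.le_of_dvd (by norm_num) h2
      omega
    · exact hℓM' h2
  exact exists_basis_hOmega_lower ℓ A π hπ (Nat.dvd_lcm_right 4 M') (Nat.dvd_lcm_left 4 M') hℓM hA
    (Fermat.Agent.S40x.C2.Descent.Index.not_dvd_relIndex_lcm_four hℓ h5 M')

end Fermat.Agent.S40x.C2.DescB
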